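import Mathlib.FieldTheory.IntermediateField.Basic
import Mathlib.RingTheory.Ideal.Basic
import Mathlib.Algebra.Group.Int.Units
import Mathlib.Tactic.FieldSimp
import Mathlib.Tactic.Ring
import Mathlib.Tactic.LinearCombination
import Mathlib.LinearAlgebra.FiniteDimensional.Basic

/-!
# Quadratic norm symbols

For a field `F` between `k` and `K` and `a b ∈ Fˣ`, the symbol `hs F a b` is `1` exactly when `a`
is of the form `x ^ 2 - b * y ^ 2` with `x y ∈ F`.  When every nontrivial norm group of this kind has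
index two (local fields, `ℝ`), this is a non-degenerate symmetric bilinear pairing satisfying
`(a, 1 - a) = 1`.
-/

set_option autoImplicit false

noncomputable section

namespace Fermat.Agent.TwoAdic.Symbol

variable {k K : Type*} [Field k] [Field K] [Algebra k K]

/-- `a` is a norm from the quadratic algebra `F[√b]`. -/
def IsNormOf (F : IntermediateField k K) (b a : K) : Prop :=
  ∃ x ∈ F, ∃ y ∈ F, a = x ^ 2 - b * y ^ 2

/-- `b` is a square in `F`. -/
def IsSquareIn (F : IntermediateField k K) (b : K) : Prop := ∃ s ∈ F, s ^ 2 = b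

open Classical in
/-- The norm symbol. -/
def hs (F : IntermediateField k K) (a b : K) : ℤˣ := if IsNormOf F b a then 1 else -1

/-- Norm groups of nontrivial quadratic extensions of finite extensions of `k` have index two. -/
class IndexTwo (k K : Type*) [Field k] [Field K] [Algebra k K] : Prop where
  exists_not_norm : ∀ F : IntermediateField k K, FiniteDimensional k F → ∀ b ∈ F, b ≠ 0 →
    ¬ IsSquareIn F b → ∃ a ∈ F, a ≠ 0 ∧ ¬ IsNormOf F b a
  mul_norm : ∀ F : IntermediateField k K, FiniteDimensional k F → ∀ b ∈ F, b ≠ 0 →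
    ∀ a₁ ∈ F, ∀ a₂ ∈ F, a₁ ≠ 0 → a₂ ≠ 0 → ¬ IsNormOf F b a₁ → ¬ IsNormOf F b a₂ →
      IsNormOf F b (a₁ * a₂)

variable {F : IntermediateField k K} {a a' b b' : K}

lemma IsNormOf.mem (hb : b ∈ F) (h : IsNormOf F b a) : a ∈ F := by
  obtain ⟨x, hx, y, hy, rfl⟩ := h
  exact sub_mem (pow_mem hx 2) (mul_mem hb (pow_mem hy 2))

lemma isNormOf_sq {c : K} (hc : c ∈ F) : IsNormOf F b (c ^ 2) := ⟨c, hc, 0, zero_mem F, by ring⟩

lemma isNormOf_one : IsNormOf F b 1 := by simpa using isNormOf_sq (b := b) (one_mem F)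

lemma IsNormOf.mul (hb : b ∈ F) (h : IsNormOf F b a) (h' : IsNormOf F b a') :
    IsNormOf F b (a * a') := by
  obtain ⟨x, hx, y, hy, rfl⟩ := h
  obtain ⟨z, hz, w, hw, rfl⟩ := h'
  exact ⟨x * z + b * y * w, add_mem (mul_mem hx hz) (mul_mem (mul_mem hb hy) hw),
    x * w + y * z, add_mem (mul_mem hx hw) (mul_mem hy hz), by ring⟩

lemma IsNormOf.inv (hb : b ∈ F) (h : IsNormOf F b a) : IsNormOf F b a⁻¹ := by
  have := h.mul hb (isNormOf_sq (inv_mem (h.mem hb)))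
  rcases eq_or_ne a 0 with rfl | ha
  · simpa using h
  · rwa [show a * a⁻¹ ^ 2 = a⁻¹ by field_simp] at this

lemma isNormOf_of_isSquareIn [CharZero K] (hb : IsSquareIn F b) (hb0 : b ≠ 0) (ha : a ∈ F) :
    IsNormOf F b a := by
  obtain ⟨s, hs, rfl⟩ := hb
  have hs0 : s ≠ 0 := fun h => hb0 (by rw [h]; ring)
  have h2 : (2 : K) ∈ F := natCast_mem F 2
  exact ⟨(a + 1) / 2, div_mem (add_mem ha (one_mem F)) h2, (a - 1) / (2 * s),
    div_mem (sub_mem ha (one_mem F)) (mul_mem h2 hs), by field_simp; ring⟩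

lemma IsNormOf.comm [CharZero K] (hb : b ∈ F) (ha0 : a ≠ 0) (h : IsNormOf F b a) :
    IsNormOf F a b := by
  obtain ⟨x, hx, y, hy, hxy⟩ := h
  rcases eq_or_ne y 0 with rfl | hy0
  · exact isNormOf_of_isSquareIn ⟨x, hx, by rw [hxy]; ring⟩ ha0 hb
  · refine ⟨x / y, div_mem hx hy, y⁻¹, inv_mem hy, ?_⟩
    rw [hxy]
    field_simp
    ring

lemma hs_eq_one_iff : hs F a b = 1 ↔ IsNormOf F b a := by
  classical
  rw [hs]
  split_ifs with h
  · simp [h]
  · simp [h]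

lemma hs_eq_neg_one_iff : hs F a b = -1 ↔ ¬ IsNormOf F b a := by
  classical
  rw [hs]
  split_ifs with h
  · simp [h]
  · simp [h]

lemma hs_eq_hs_iff {k' K' : Type*} [Field k'] [Field K'] [Algebra k' K']
    {F' : IntermediateField k' K'} {c d : K'} :
    hs F a b = hs F' c d ↔ (IsNormOf F b a ↔ IsNormOf F' d c) := by
  rw [← hs_eq_one_iff, ← hs_eq_one_iff]
  rcases Int.units_eq_one_or (hs F a b) with h | h <;>
    rcases Int.units_eq_one_or (hs F' c d) with h' | h' <;> simp [h, h']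

lemma hs_one_left : hs F 1 b = 1 := hs_eq_one_iff.2 isNormOf_one

lemma hs_sq_left {c : K} (hc : c ∈ F) : hs F (c ^ 2) b = 1 := hs_eq_one_iff.2 (isNormOf_sq hc)

lemma hs_comm [CharZero K] (ha : a ∈ F) (hb : b ∈ F) (ha0 : a ≠ 0) (hb0 : b ≠ 0) :
    hs F a b = hs F b a :=
  hs_eq_hs_iff.2 ⟨IsNormOf.comm hb ha0, IsNormOf.comm ha hb0⟩

lemma hs_of_isSquareIn_right [CharZero K] (hb : IsSquareIn F b) (hb0 : b ≠ 0) (ha : a ∈ F) :
    hs F a b = 1 :=
  hs_eq_one_iff.2 (isNormOf_of_isSquareIn hb hb0 ha)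

lemma hs_of_isSquareIn_left (ha : IsSquareIn F a) : hs F a b = 1 := by
  obtain ⟨s, hs', rfl⟩ := ha
  exact hs_sq_left hs'

/-- The Steinberg relation. -/
lemma hs_steinberg [CharZero K] (ha : a ∈ F) (ha1 : 1 - a ≠ 0) :
    hs F a (1 - a) = 1 :=
  hs_eq_one_iff.2 (IsNormOf.comm ha ha1 ⟨1, one_mem F, 1, one_mem F, by ring⟩)

lemma hs_self_neg [CharZero K] (ha : a ∈ F) (ha0 : a ≠ 0) : hs F a (-a) = 1 :=
  hs_eq_one_iff.2 (IsNormOf.comm ha (neg_ne_zero.2 ha0) ⟨0, zero_mem F, 1, one_mem F, by ring⟩)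

variable [IndexTwo k K]

lemma hs_mul_left [FiniteDimensional k F] (ha : a ∈ F) (ha' : a' ∈ F) (hb : b ∈ F) (ha0 : a ≠ 0)
    (ha'0 : a' ≠ 0) (hb0 : b ≠ 0) : hs F (a * a') b = hs F a b * hs F a' b := by
  by_cases h : IsNormOf F b a <;> by_cases h' : IsNormOf F b a'
  · rw [hs_eq_one_iff.2 h, hs_eq_one_iff.2 h', hs_eq_one_iff.2 (h.mul hb h'), one_mul]
  · rw [hs_eq_one_iff.2 h, hs_eq_neg_one_iff.2 h', hs_eq_neg_one_iff.2, one_mul]
    intro h2
    have := (h.inv hb).mul hb h2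
    rw [← mul_assoc, inv_mul_cancel₀ ha0, one_mul] at this
    exact h' this
  · rw [hs_eq_neg_one_iff.2 h, hs_eq_one_iff.2 h', hs_eq_neg_one_iff.2, mul_one]
    intro h2
    have := h2.mul hb (h'.inv hb)
    rw [mul_assoc, mul_inv_cancel₀ ha'0, mul_one] at this
    exact h this
  · rw [hs_eq_neg_one_iff.2 h, hs_eq_neg_one_iff.2 h',
      hs_eq_one_iff.2 (IndexTwo.mul_norm F inferInstance b hb hb0 a ha a' ha' ha0 ha'0 h h')]
    decide

lemma hs_mul_right [CharZero K] [FiniteDimensional k F] (ha : a ∈ F) (hb : b ∈ F) (hb' : b' ∈ F)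
    (ha0 : a ≠ 0) (hb0 : b ≠ 0) (hb'0 : b' ≠ 0) :
    hs F a (b * b') = hs F a b * hs F a b' := by
  rw [hs_comm ha (mul_mem hb hb') ha0 (mul_ne_zero hb0 hb'0), hs_mul_left hb hb' ha hb0 hb'0 ha0,
    hs_comm hb ha hb0 ha0, hs_comm hb' ha hb'0 ha0]

/-- Non-degeneracy. -/
lemma isSquareIn_of_forall_hs [FiniteDimensional k F] (hb : b ∈ F) (hb0 : b ≠ 0)
    (h : ∀ a ∈ F, a ≠ 0 → hs F a b = 1) : IsSquareIn F b := by
  by_contra hn
  obtain ⟨a, ha, ha0, hna⟩ := IndexTwo.exists_not_norm F inferInstance b hb hb0 hn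
  exact hna (hs_eq_one_iff.1 (h a ha ha0))

lemma exists_hs_eq_neg_one [FiniteDimensional k F] (hb : b ∈ F) (hb0 : b ≠ 0)
    (hn : ¬ IsSquareIn F b) : ∃ a ∈ F, a ≠ 0 ∧ hs F a b = -1 := by
  obtain ⟨a, ha, ha0, hna⟩ := IndexTwo.exists_not_norm F inferInstance b hb hb0 hn
  exact ⟨a, ha, ha0, hs_eq_neg_one_iff.2 hna⟩

end Fermat.Agent.TwoAdic.Symbol

end
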