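import Fermat.Agent.TwoAdic.Symbol.Padic
import Mathlib.NumberTheory.LegendreSymbol.QuadraticReciprocity
import Mathlib.NumberTheory.Padics.Hensel
import Mathlib.RingTheory.Int.Basic

/-!
# The product formula for the norm symbol over `ℚ`

Deduced from quadratic reciprocity and its two supplements.
-/

set_option autoImplicit false

noncomputable section

namespace Fermat.Agent.TwoAdic.Symbol

open Fermat.Agent.ClassField.Idele
open Finset

/-- A family of local signs with product `1`. -/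
def Recip (g : ℤˣ) (f : Nat.Primes → ℤˣ) : Prop :=
  ∃ S : Finset Nat.Primes, ∀ S' : Finset Nat.Primes, S ⊆ S' → g * ∏ v ∈ S', f v = 1

lemma Recip.mul {g g' : ℤˣ} {f f' : Nat.Primes → ℤˣ} (h : Recip g f) (h' : Recip g' f') :
    Recip (g * g') (fun v => f v * f' v) := by
  classical
  obtain ⟨S, hS⟩ := h
  obtain ⟨S', hS'⟩ := h'
  refine ⟨S ∪ S', fun U hU => ?_⟩
  rw [prod_mul_distrib, mul_mul_mul_comm, hS U (union_subset_left hU),
    hS' U (union_subset_right hU), one_mul]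

lemma Recip.congr {g g' : ℤˣ} {f f' : Nat.Primes → ℤˣ} (h : Recip g f) (hg : g' = g)
    (hf : ∀ v, f' v = f v) : Recip g' f' := by
  rw [hg, funext hf]; exact h

lemma recip_of_forall_eq_one {g : ℤˣ} {f : Nat.Primes → ℤˣ} (hg : g = 1) (hf : ∀ v, f v = 1) :
    Recip g f :=
  ⟨∅, fun S' _ => by rw [hg, one_mul, prod_eq_one fun v _ => hf v]⟩

lemma recip_of_finset {g : ℤˣ} {f : Nat.Primes → ℤˣ} (S : Finset Nat.Primes)
    (hf : ∀ v, v ∉ S → f v = 1) (h : g * ∏ v ∈ S, f v = 1) : Recip g f :=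
  ⟨S, fun S' hS' => by rwa [← prod_subset hS' fun v _ hv => hf v hv]⟩

lemma recip_pair {g : ℤˣ} {f : Nat.Primes → ℤˣ} (v₁ v₂ : Nat.Primes) (hne : v₁ ≠ v₂)
    (hf : ∀ v, v ≠ v₁ → v ≠ v₂ → f v = 1) (h : g * (f v₁ * f v₂) = 1) : Recip g f :=
  recip_of_finset {v₁, v₂} (fun v hv => by
    simp only [Finset.mem_insert, Finset.mem_singleton, not_or] at hv
    exact hf v hv.1 hv.2) (by rwa [prod_pair hne])

lemma recip_triple {g : ℤˣ} {f : Nat.Primes → ℤˣ} (v₁ v₂ v₃ : Nat.Primes) (h₁₂ : v₁ ≠ v₂)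
    (h₁₃ : v₁ ≠ v₃) (h₂₃ : v₂ ≠ v₃) (hf : ∀ v, v ≠ v₁ → v ≠ v₂ → v ≠ v₃ → f v = 1)
    (h : g * (f v₁ * (f v₂ * f v₃)) = 1) : Recip g f :=
  recip_of_finset {v₁, v₂, v₃} (fun v hv => by
    simp only [Finset.mem_insert, Finset.mem_singleton, not_or] at hv
    exact hf v hv.1 hv.2.1 hv.2.2) (by rwa [prod_insert (by simp [h₁₂, h₁₃]), prod_pair h₂₃])

/-- The symbol of two rationals at a prime. -/
def hv (v : Nat.Primes) (a b : ℚ) : ℤˣ :=
  hs (⊥ : IntermediateField ℚ_[(v : ℕ)] (PadicAlgCl (v : ℕ))) (a : PadicAlgCl (v : ℕ))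
    (b : PadicAlgCl (v : ℕ))

/-- The symbol of two rationals at infinity. -/
def hinf (a b : ℚ) : ℤˣ := hs (⊥ : IntermediateField ℝ ℂ) (a : ℂ) (b : ℂ)

/-- The product formula for two rationals. -/
def RecipQ (a b : ℚ) : Prop := Recip (hinf a b) fun v => hv v a b

section Generic

variable {k K : Type*} [Field k] [Field K] [Algebra k K] [CharZero K]

omit [CharZero K] in
lemma ratCast_mem_bot (a : ℚ) : (a : K) ∈ (⊥ : IntermediateField k K) :=
  SubfieldClass.ratCast_mem _ a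

variable [IndexTwo k K] {a a' b : ℚ}

lemma hs_rat_mul (ha : a ≠ 0) (ha' : a' ≠ 0) (hb : b ≠ 0) :
    hs (⊥ : IntermediateField k K) ((a * a' : ℚ) : K) (b : K) =
      hs (⊥ : IntermediateField k K) (a : K) (b : K) * hs (⊥ : IntermediateField k K) (a' : K) (b : K) := by
  rw [Rat.cast_mul]
  exact hs_mul_left (ratCast_mem_bot a) (ratCast_mem_bot a') (ratCast_mem_bot b)
    (Rat.cast_ne_zero.2 ha) (Rat.cast_ne_zero.2 ha') (Rat.cast_ne_zero.2 hb)

omit [IndexTwo k K] in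
lemma hs_rat_comm (ha : a ≠ 0) (hb : b ≠ 0) :
    hs (⊥ : IntermediateField k K) (a : K) (b : K) = hs (⊥ : IntermediateField k K) (b : K) (a : K) :=
  hs_comm (ratCast_mem_bot a) (ratCast_mem_bot b) (Rat.cast_ne_zero.2 ha) (Rat.cast_ne_zero.2 hb)

lemma hs_rat_self (ha : a ≠ 0) :
    hs (⊥ : IntermediateField k K) (a : K) (a : K) = hs (⊥ : IntermediateField k K) (a : K) ((-1 : ℚ) : K) := by
  have ham := ratCast_mem_bot (k := k) (K := K) a
  have ha0 : (a : K) ≠ 0 := Rat.cast_ne_zero.2 ha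
  have h := hs_mul_right ham (neg_mem ham) (ratCast_mem_bot (k := k) (K := K) (-1)) ha0
    (neg_ne_zero.2 ha0) (by simp)
  rw [hs_self_neg ham ha0, one_mul, Rat.cast_neg, Rat.cast_one, neg_mul_neg, mul_one] at h
  rw [h, Rat.cast_neg, Rat.cast_one]

end Generic

section Mult

variable {a a' b : ℚ}

lemma RecipQ.mul_left (ha : a ≠ 0) (ha' : a' ≠ 0) (hb : b ≠ 0) (h : RecipQ a b)
    (h' : RecipQ a' b) : RecipQ (a * a') b :=
  (h.mul h').congr (hs_rat_mul ha ha' hb) fun _ => hs_rat_mul ha ha' hb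

lemma RecipQ.symm (ha : a ≠ 0) (hb : b ≠ 0) (h : RecipQ a b) : RecipQ b a :=
  h.congr (hs_rat_comm hb ha) fun _ => hs_rat_comm hb ha

lemma recipQ_one_left : RecipQ 1 b :=
  recip_of_forall_eq_one (by rw [hinf, Rat.cast_one, hs_one_left])
    fun v => by rw [hv, Rat.cast_one, hs_one_left]

lemma recipQ_sq_left (c : ℚ) : RecipQ (c ^ 2) b :=
  recip_of_forall_eq_one (by rw [hinf, Rat.cast_pow, hs_sq_left (ratCast_mem_bot c)])
    fun v => by rw [hv, Rat.cast_pow, hs_sq_left (ratCast_mem_bot c)]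

lemma recipQ_left_of_gens (hb : b ≠ 0) (hneg : RecipQ (-1) b)
    (hp : ∀ p : ℕ, p.Prime → RecipQ p b) (ha : a ≠ 0) : RecipQ a b := by
  have hnat : ∀ n : ℕ, n ≠ 0 → RecipQ n b := by
    intro n
    induction n using Nat.recOnMul with
    | zero => exact fun h => absurd rfl h
    | one => intro; rw [Nat.cast_one]; exact recipQ_one_left
    | prime p hp' => exact fun _ => hp p hp'
    | mul m n hm hn =>
      intro hmn
      rw [Nat.cast_mul]
      obtain ⟨hm0, hn0⟩ := mul_ne_zero_iff.1 hmn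
      exact RecipQ.mul_left (Nat.cast_ne_zero.2 hm0) (Nat.cast_ne_zero.2 hn0) hb (hm hm0) (hn hn0)
  have hint : ∀ n : ℤ, n ≠ 0 → RecipQ n b := by
    intro n hn
    obtain ⟨m, rfl | rfl⟩ := n.eq_nat_or_neg
    · rw [Int.cast_natCast]; exact hnat m (Nat.cast_ne_zero.1 hn)
    · have hm : m ≠ 0 := fun h => hn (by simp [h])
      rw [Int.cast_neg, Int.cast_natCast, show (-(m : ℚ)) = (-1) * m by ring]
      exact RecipQ.mul_left (by norm_num) (Nat.cast_ne_zero.2 hm) hb hneg (hnat m hm)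
  have hd : (a.den : ℚ) ≠ 0 := Nat.cast_ne_zero.2 a.den_nz
  have heq : a = (a.num * a.den : ℚ) * ((a.den : ℚ)⁻¹) ^ 2 := by
    conv_lhs => rw [← Rat.num_div_den a]
    field_simp
  have hnum : (a.num : ℚ) ≠ 0 := Int.cast_ne_zero.2 (Rat.num_ne_zero.2 ha)
  rw [heq]
  exact RecipQ.mul_left (mul_ne_zero hnum hd) (pow_ne_zero 2 (inv_ne_zero hd)) hb
    (RecipQ.mul_left hnum hd hb (hint _ (Rat.num_ne_zero.2 ha)) (hnat _ a.den_nz))
    (recipQ_sq_left _)

end Mult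

section Local

variable {v : Nat.Primes}

local notation "K" => PadicAlgCl (v : ℕ)

lemma algebraMap_intCast_eq (n : ℤ) :
    algebraMap ℚ_[(v : ℕ)] K (n : ℚ_[(v : ℕ)]) = ((n : ℚ) : K) := by
  rw [map_intCast, Rat.cast_intCast]

/-- Hensel: `n` is a square in `ℚ_v` when it is one modulo enough. -/
lemma isSquareIn_bot_of_hensel {n x : ℤ}
    (h : ‖((x ^ 2 - n : ℤ) : ℤ_[(v : ℕ)])‖ < ‖((2 * x : ℤ) : ℤ_[(v : ℕ)])‖ ^ 2) :
    IsSquareIn (⊥ : IntermediateField ℚ_[(v : ℕ)] (PadicAlgCl (v : ℕ))) ((n : ℚ) : K) := by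
  obtain ⟨z, hz, -⟩ := hensels_lemma (F := Polynomial.X ^ 2 - Polynomial.C n)
    (a := (x : ℤ_[(v : ℕ)])) (by simpa [mul_comm, map_ofNat] using h)
  refine ⟨algebraMap ℚ_[(v : ℕ)] K (z : ℚ_[(v : ℕ)]), IntermediateField.algebraMap_mem _ _, ?_⟩
  simp only [map_sub, map_pow, Polynomial.aeval_X, Polynomial.aeval_C, algebraMap_int_eq,
    Int.coe_castRingHom, sub_eq_zero] at hz
  rw [← map_pow, ← algebraMap_intCast_eq, ← PadicInt.coe_pow, hz, PadicInt.coe_intCast]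

lemma norm_intCast_eq_one_of_not_dvd {n : ℤ} (h : ¬ ((v : ℕ) : ℤ) ∣ n) :
    ‖(n : ℤ_[(v : ℕ)])‖ = 1 :=
  le_antisymm (PadicInt.norm_le_one _) (not_lt.1 fun hlt => h (PadicInt.norm_intCast_lt_one_iff.1 hlt))

lemma norm_ratCast_intCast {n : ℤ} (h : ¬ ((v : ℕ) : ℤ) ∣ n) : ‖((n : ℚ) : K)‖ = 1 := by
  rw [← algebraMap_intCast_eq, norm_algebraMap', ← PadicInt.coe_intCast, ← PadicInt.norm_def]
  exact norm_intCast_eq_one_of_not_dvd h

lemma unrSqrt_intCast (hv2 : (v : ℕ) ≠ 2) {n : ℤ} (h : ¬ ((v : ℕ) : ℤ) ∣ n) :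
    UnrSqrt (⊥ : IntermediateField ℚ_[(v : ℕ)] (PadicAlgCl (v : ℕ))) ((n : ℚ) : K) :=
  unrSqrt_of_evenVal hv2 (ratCast_mem_bot _)
    (Rat.cast_ne_zero.2 (Int.cast_ne_zero.2 fun h0 => h (h0 ▸ dvd_zero _)))
    (evenVal_of_norm_one (norm_ratCast_intCast h))

lemma hv_units (hv2 : (v : ℕ) ≠ 2) {m n : ℤ} (hm : ¬ ((v : ℕ) : ℤ) ∣ m)
    (hn : ¬ ((v : ℕ) : ℤ) ∣ n) : hv v (m : ℚ) (n : ℚ) = 1 :=
  hs_eq_one_of_unrSqrt (ratCast_mem_bot _) (ratCast_mem_bot _)
    (Rat.cast_ne_zero.2 (Int.cast_ne_zero.2 fun h0 => hm (h0 ▸ dvd_zero _)))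
    (Rat.cast_ne_zero.2 (Int.cast_ne_zero.2 fun h0 => hn (h0 ▸ dvd_zero _)))
    (unrSqrt_intCast hv2 hm) (unrSqrt_intCast hv2 hn)

lemma not_evenVal_prime :
    ¬ EvenVal (⊥ : IntermediateField ℚ_[(v : ℕ)] (PadicAlgCl (v : ℕ)))
      (((v : ℕ) : ℚ) : K) := by
  rintro ⟨c, hc, hn⟩
  obtain ⟨x, rfl⟩ := IntermediateField.mem_bot.1 hc
  rw [Rat.cast_natCast, ← map_natCast (algebraMap ℚ_[(v : ℕ)] K), norm_algebraMap',
    norm_algebraMap', Padic.norm_p] at hn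
  rcases eq_or_ne x 0 with rfl | hx
  · simp at hn
    exact v.2.ne_zero hn
  · rw [Padic.norm_eq_zpow_neg_valuation hx, ← zpow_neg_one, ← zpow_natCast, ← zpow_mul] at hn
    have h := zpow_right_injective₀ (Nat.cast_pos.2 v.2.pos)
      (by exact_mod_cast v.2.one_lt.ne') hn
    push_cast at h
    omega

/-- The symbol of the prime and a unit is the Legendre symbol. -/
lemma coe_hv_prime (hv2 : (v : ℕ) ≠ 2) {u : ℤ} (hu : ¬ ((v : ℕ) : ℤ) ∣ u) :
    ((hv v ((v : ℕ) : ℚ) (u : ℚ) : ℤˣ) : ℤ) = legendreSym (v : ℕ) u := by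
  have hu0 : (u : ZMod (v : ℕ)) ≠ 0 := fun h => hu ((ZMod.intCast_zmod_eq_zero_iff_dvd u _).1 h)
  have hub : ((u : ℚ) : K) ≠ 0 :=
    Rat.cast_ne_zero.2 (Int.cast_ne_zero.2 fun h0 => hu (h0 ▸ dvd_zero _))
  rcases legendreSym.eq_one_or_neg_one (v : ℕ) hu0 with h | h
  · obtain ⟨c, hc⟩ := (legendreSym.eq_one_iff _ hu0).1 h
    obtain ⟨x, rfl⟩ := ZMod.intCast_surjective c
    have hx : ¬ ((v : ℕ) : ℤ) ∣ x := fun hd => hu0 (by
      rw [hc, (ZMod.intCast_zmod_eq_zero_iff_dvd x _).2 hd, mul_zero])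
    have hsq := isSquareIn_bot_of_hensel (v := v) (n := u) (x := x) (by
      rw [norm_intCast_eq_one_of_not_dvd (n := 2 * x), one_pow, PadicInt.norm_intCast_lt_one_iff,
        ← ZMod.intCast_zmod_eq_zero_iff_dvd]
      · push_cast; rw [hc]; ring
      · intro hd
        rcases (Nat.prime_iff_prime_int.1 v.2).dvd_or_dvd hd with h2 | h2
        · exact hv2 ((Nat.prime_dvd_prime_iff_eq v.2 Nat.prime_two).1 (by exact_mod_cast h2))
        · exact hx h2)
    rw [hv, hs_of_isSquareIn_right hsq hub (ratCast_mem_bot _), h, Units.val_one]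
  · rw [hv, hs_eq_neg_one_of_not_evenVal (ratCast_mem_bot _)
      (Rat.cast_ne_zero.2 (Nat.cast_ne_zero.2 v.2.ne_zero)) ?_ (unrSqrt_intCast hv2 hu)
      not_evenVal_prime, h, Units.val_neg, Units.val_one]
    rintro ⟨s, hs, hsu⟩
    obtain ⟨t, rfl⟩ := IntermediateField.mem_bot.1 hs
    rw [← map_pow, ← algebraMap_intCast_eq] at hsu
    have ht := (algebraMap ℚ_[(v : ℕ)] K).injective hsu
    have hnu : ‖(u : ℚ_[(v : ℕ)])‖ ≤ 1 := Padic.norm_int_le_one u
    have ht1 : ‖t‖ ≤ 1 := by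
      rw [← ht, norm_pow] at hnu
      exact (pow_le_one_iff_of_nonneg (norm_nonneg _) two_ne_zero).1 hnu
    set tz : ℤ_[(v : ℕ)] := ⟨t, ht1⟩ with htz
    have hz : tz ^ 2 = (u : ℤ_[(v : ℕ)]) := by
      refine Subtype.ext ?_
      rw [PadicInt.coe_pow, PadicInt.coe_intCast]
      exact ht
    have := congrArg (PadicInt.toZMod (p := (v : ℕ))) hz
    rw [map_pow, map_intCast] at this
    have h1 : legendreSym (v : ℕ) u = 1 :=
      (legendreSym.eq_one_iff _ hu0).2 ⟨_, by rw [← this, sq]⟩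
    omega

end Local

section Two

/-- The prime `2`. -/
def two : Nat.Primes := ⟨2, Nat.prime_two⟩

local notation "K₂" => PadicAlgCl ((two : Nat.Primes) : ℕ)

lemma isSquareIn_two {n : ℤ} (hn : n % 8 = 1) :
    IsSquareIn (⊥ : IntermediateField ℚ_[((two : Nat.Primes) : ℕ)] K₂) ((n : ℚ) : K₂) := by
  refine isSquareIn_bot_of_hensel (x := 1) ?_
  have h2 : ‖((2 * 1 : ℤ) : ℤ_[((two : Nat.Primes) : ℕ)])‖ = 2⁻¹ := by
    rw [mul_one, show ((2 : ℤ) : ℤ_[((two : Nat.Primes) : ℕ)]) = (((two : Nat.Primes) : ℕ) : ℤ_[_])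
      by norm_num [two], PadicInt.norm_p]
    simp [two]
  rw [h2]
  refine lt_of_le_of_lt (PadicInt.norm_int_le_pow_iff_dvd.2 (show (((two : Nat.Primes) : ℕ) : ℤ) ^ 3 ∣ _ by
    show ((2 : ℕ) : ℤ) ^ 3 ∣ _
    omega)) ?_
  simp [two]
  norm_num

lemma hv_two_congr {n : ℤ} {r : ℤ} (h : (r * n) % 8 = 1) {b : ℚ} (hb : b ≠ 0) :
    hv two (n : ℚ) b = hv two (r : ℚ) b := by
  have hr : (r : ℚ) ≠ 0 := Int.cast_ne_zero.2 fun h0 => by simp [h0] at h
  have hn : (n : ℚ) ≠ 0 := Int.cast_ne_zero.2 fun h0 => by simp [h0] at h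
  have h1 := hs_rat_mul (k := ℚ_[((two : Nat.Primes) : ℕ)]) (K := K₂) hr hn hb
  rw [show (r : ℚ) * n = ((r * n : ℤ) : ℚ) by push_cast; ring,
    hs_of_isSquareIn_left (isSquareIn_two h)] at h1
  unfold hv
  rcases Int.units_eq_one_or
      (hs (⊥ : IntermediateField ℚ_[((two : Nat.Primes) : ℕ)] K₂) ((r : ℚ) : K₂) (b : K₂)) with
    h' | h'
  · rw [h', one_mul] at h1; rw [h', ← h1]
  · rw [h', neg_one_mul, eq_comm, neg_eq_iff_eq_neg] at h1; rw [h', h1]

lemma exists_rep_two {n : ℤ} (hn : n % 2 = 1) :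
    (n % 8 = 1 ∧ (1 * n) % 8 = 1) ∨ (n % 8 = 3 ∧ (-5 * n) % 8 = 1) ∨
      (n % 8 = 5 ∧ (5 * n) % 8 = 1) ∨ (n % 8 = 7 ∧ (-1 * n) % 8 = 1) := by
  rcases (by omega : n % 8 = 1 ∨ n % 8 = 3 ∨ n % 8 = 5 ∨ n % 8 = 7) with h | h | h | h
  · exact Or.inl ⟨h, by rw [Int.mul_emod, h]; rfl⟩
  · exact Or.inr (Or.inl ⟨h, by rw [Int.mul_emod, h]; rfl⟩)
  · exact Or.inr (Or.inr (Or.inl ⟨h, by rw [Int.mul_emod, h]; rfl⟩))
  · exact Or.inr (Or.inr (Or.inr ⟨h, by rw [Int.mul_emod, h]; rfl⟩))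

lemma isNormOf_intCast {v : Nat.Primes} {a b x y : ℤ} (h : a = x ^ 2 - b * y ^ 2) :
    hv v (a : ℚ) (b : ℚ) = 1 := by
  refine hs_eq_one_iff.2 ⟨_, ratCast_mem_bot (x : ℚ), _, ratCast_mem_bot (y : ℚ), ?_⟩
  rw [h]
  push_cast
  ring

lemma hv_two_five_neg_one : hv two 5 (-1) = 1 := by
  simpa using isNormOf_intCast (v := two) (a := 5) (b := -1) (x := 2) (y := 1) (by norm_num)

lemma hv_two_two_neg_one : hv two 2 (-1) = 1 := by
  simpa using isNormOf_intCast (v := two) (a := 2) (b := -1) (x := 1) (y := 1) (by norm_num)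

lemma hv_two_neg_one_neg_one : hv two (-1) (-1) = -1 := by
  refine hs_eq_neg_one_iff.2 ?_
  rintro ⟨x, hx, y, hy, hxy⟩
  obtain ⟨a, rfl⟩ := IntermediateField.mem_bot.1 hx
  obtain ⟨b, rfl⟩ := IntermediateField.mem_bot.1 hy
  have hsum : a ^ 2 + b ^ 2 + 1 ^ 2 = (0 : ℚ_[((two : Nat.Primes) : ℕ)]) := by
    apply (algebraMap ℚ_[((two : Nat.Primes) : ℕ)] K₂).injective
    push_cast at hxy
    simp only [map_add, map_pow, map_one, map_zero]
    linear_combination -hxy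
  have key : ∀ X Y Z : ℚ_[((two : Nat.Primes) : ℕ)], ‖X‖ ≤ 1 → ‖Y‖ ≤ 1 → ‖Z‖ ≤ 1 →
      (X = 1 ∨ Y = 1 ∨ Z = 1) → X ^ 2 + Y ^ 2 + Z ^ 2 ≠ 0 := by
    intro X₀ Y₀ Z₀ hX hY hZ h1 h0
    obtain ⟨X, rfl⟩ : ∃ X : ℤ_[((two : Nat.Primes) : ℕ)], (X : ℚ_[_]) = X₀ := ⟨⟨X₀, hX⟩, rfl⟩
    obtain ⟨Y, rfl⟩ : ∃ Y : ℤ_[((two : Nat.Primes) : ℕ)], (Y : ℚ_[_]) = Y₀ := ⟨⟨Y₀, hY⟩, rfl⟩
    obtain ⟨Z, rfl⟩ : ∃ Z : ℤ_[((two : Nat.Primes) : ℕ)], (Z : ℚ_[_]) = Z₀ := ⟨⟨Z₀, hZ⟩, rfl⟩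
    have hz : X ^ 2 + Y ^ 2 + Z ^ 2 = 0 := Subtype.ext (by push_cast; exact h0)
    have h4 := congrArg (PadicInt.toZModPow (p := ((two : Nat.Primes) : ℕ)) 2) hz
    rw [map_add, map_add, map_pow, map_pow, map_pow, map_zero] at h4
    have hdec : ∀ A B C : ZMod (2 ^ 2), (A = 1 ∨ B = 1 ∨ C = 1) → A ^ 2 + B ^ 2 + C ^ 2 ≠ 0 := by
      decide
    refine hdec _ _ _ ?_ h4
    rcases h1 with h | h | h
    · exact Or.inl (by rw [show X = 1 from Subtype.ext h]; exact _root_.map_one _)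
    · exact Or.inr (Or.inl (by rw [show Y = 1 from Subtype.ext h]; exact _root_.map_one _))
    · exact Or.inr (Or.inr (by rw [show Z = 1 from Subtype.ext h]; exact _root_.map_one _))
  have hscale : ∀ t : ℚ_[((two : Nat.Primes) : ℕ)], ‖a‖ ≤ ‖t‖ → ‖b‖ ≤ ‖t‖ → 1 ≤ ‖t‖ →
      (t = a ∨ t = b ∨ t = 1) → False := by
    intro t h1 h2 h3 h4
    have ht : t ≠ 0 := fun h => by rw [h, norm_zero] at h3; norm_num at h3
    have htp : 0 < ‖t‖ := norm_pos_iff.2 ht
    refine key (a / t) (b / t) (1 / t) ?_ ?_ ?_ ?_ ?_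
    · rw [norm_div, div_le_one htp]; exact h1
    · rw [norm_div, div_le_one htp]; exact h2
    · rw [norm_div, norm_one, div_le_one htp]; exact h3
    · rcases h4 with rfl | rfl | rfl
      · exact Or.inl (div_self ht)
      · exact Or.inr (Or.inl (div_self ht))
      · exact Or.inr (Or.inr (div_self ht))
    · rw [div_pow, div_pow, div_pow, ← add_div, ← add_div, hsum, zero_div]
  rcases le_total ‖a‖ ‖b‖ with h | h
  · rcases le_total ‖b‖ 1 with h' | h'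
    · exact hscale 1 (by simpa using h.trans h') (by simpa using h') (by simp) (by simp)
    · exact hscale b h le_rfl h' (by simp)
  · rcases le_total ‖a‖ 1 with h' | h'
    · exact hscale 1 (by simpa using h') (by simpa using h.trans h') (by simp) (by simp)
    · exact hscale a le_rfl h h' (by simp)

lemma unrSqrt_five :
    UnrSqrt (⊥ : IntermediateField ℚ_[((two : Nat.Primes) : ℕ)] K₂) ((5 : ℚ) : K₂) := by
  obtain ⟨s, hs⟩ := IsAlgClosed.exists_pow_nat_eq (5 : K₂) (n := 2) two_pos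
  refine ⟨s, by rw [hs]; norm_num, fun τ hτ _ => ?_⟩
  have h2 : ‖(2 : K₂)‖ = 2⁻¹ := by
    rw [show (2 : K₂) = algebraMap ℚ_[((two : Nat.Primes) : ℕ)] K₂ ((two : Nat.Primes) : ℕ) from
      (map_natCast _ 2).symm, norm_algebraMap', Padic.norm_p]
    simp [two]
  have h5 : ‖(5 : K₂)‖ = 1 := by
    have := norm_natCast_eq_one (v := two) (n := 5) (by simp [two])
    simpa using this
  have hsn : ‖s‖ = 1 := by
    rw [← hs, norm_pow] at h5
    exact (pow_eq_one_iff_of_nonneg (norm_nonneg _) two_ne_zero).1 h5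
  set w := (1 + s) / 2
  have hw : ‖w‖ ≤ 1 := by
    by_contra hlt
    push Not at hlt
    have h1 : w ^ 2 = w + 1 := by
      simp only [w]
      field_simp
      linear_combination hs
    have h2' : ‖w + 1‖ ≤ ‖w‖ :=
      (IsUltrametricDist.norm_add_le_max w 1).trans (max_le le_rfl (by rw [norm_one]; exact hlt.le))
    rw [← h1, norm_pow] at h2'
    nlinarith
  have h := hτ w hw
  refine (sq_eq_sq_iff_eq_or_eq_neg.1 (show (τ s) ^ 2 = s ^ 2 by
    rw [← map_pow, hs, map_ofNat])).resolve_right fun hneg => ?_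
  simp only [w, map_div₀, map_add, map_one, map_ofNat, hneg] at h
  rw [show (1 + -s) / (2 : K₂) - (1 + s) / 2 = -s by ring, norm_neg, hsn] at h
  exact lt_irrefl _ h

lemma not_isSquareIn_five :
    ¬ IsSquareIn (⊥ : IntermediateField ℚ_[((two : Nat.Primes) : ℕ)] K₂) ((5 : ℚ) : K₂) := by
  rintro ⟨s, hs, hs5⟩
  obtain ⟨t, rfl⟩ := IntermediateField.mem_bot.1 hs
  rw [← map_pow, show ((5 : ℚ) : K₂) = algebraMap ℚ_[((two : Nat.Primes) : ℕ)] K₂ 5 by
    rw [map_ofNat]; norm_num]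
    at hs5
  have ht := (algebraMap ℚ_[((two : Nat.Primes) : ℕ)] K₂).injective hs5
  have ht1 : ‖t‖ ≤ 1 := by
    have h5 : ‖(5 : ℚ_[((two : Nat.Primes) : ℕ)])‖ ≤ 1 := by
      exact_mod_cast Padic.norm_int_le_one (p := ((two : Nat.Primes) : ℕ)) 5
    rw [← ht, norm_pow] at h5
    exact (pow_le_one_iff_of_nonneg (norm_nonneg _) two_ne_zero).1 h5
  obtain ⟨t, rfl⟩ : ∃ t' : ℤ_[((two : Nat.Primes) : ℕ)], (t' : ℚ_[_]) = t := ⟨⟨t, ht1⟩, rfl⟩
  have hz : t ^ 2 = 5 := Subtype.ext (by push_cast; exact ht)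
  have h8 := congrArg (PadicInt.toZModPow (p := ((two : Nat.Primes) : ℕ)) 3) hz
  rw [map_pow, map_ofNat] at h8
  revert h8
  generalize PadicInt.toZModPow (p := ((two : Nat.Primes) : ℕ)) 3 t = A
  revert A
  decide

lemma hv_two_two_five : hv two 2 5 = -1 := by
  refine hs_eq_neg_one_of_not_evenVal (ratCast_mem_bot _) (by simp) not_isSquareIn_five
    unrSqrt_five ?_
  have := not_evenVal_prime (v := two)
  simpa [two] using this

lemma hv_two_five_five : hv two 5 5 = 1 := by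
  rw [hv, hs_rat_self (by norm_num)]
  exact hv_two_five_neg_one

/-- The sign `-1` exactly when the proposition holds. -/
def signIf (P : Prop) [Decidable P] : ℤˣ := if P then -1 else 1

lemma hv_two_neg_five {b : ℚ} (hb : b ≠ 0) :
    hv two (-5) b = hv two (-1) b * hv two 5 b := by
  rw [show (-5 : ℚ) = (-1) * 5 by norm_num]
  exact hs_rat_mul (by norm_num) (by norm_num) hb

lemma hv_two_odd_neg_one {n : ℤ} (hn : n % 2 = 1) :
    hv two (n : ℚ) (-1) = signIf (n % 4 = 3) := by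
  rcases exists_rep_two hn with ⟨h, hr⟩ | ⟨h, hr⟩ | ⟨h, hr⟩ | ⟨h, hr⟩ <;>
    rw [hv_two_congr hr (by norm_num)] <;>
    simp only [signIf, show n % 4 = (n % 8) % 4 by omega, h] <;> norm_num
  · rw [hv, Rat.cast_one, hs_one_left]
  · rw [hv_two_neg_five (by norm_num), hv_two_neg_one_neg_one, hv_two_five_neg_one]; rfl
  · exact hv_two_five_neg_one
  · exact hv_two_neg_one_neg_one

lemma hv_two_odd_five {n : ℤ} (hn : n % 2 = 1) : hv two (n : ℚ) 5 = 1 := by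
  have h15 : hv two (-1) 5 = 1 := by
    rw [hv, hs_rat_comm (by norm_num) (by norm_num)]; exact hv_two_five_neg_one
  rcases exists_rep_two hn with ⟨h, hr⟩ | ⟨h, hr⟩ | ⟨h, hr⟩ | ⟨h, hr⟩ <;>
    rw [hv_two_congr hr (by norm_num)] <;> norm_num
  · rw [hv, Rat.cast_one, hs_one_left]
  · rw [hv_two_neg_five (by norm_num), h15, hv_two_five_five]; rfl
  · exact hv_two_five_five
  · exact h15

lemma hv_two_odd_two {n : ℤ} (hn : n % 2 = 1) :
    hv two (n : ℚ) 2 = signIf (n % 8 = 3 ∨ n % 8 = 5) := by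
  have h52 : hv two 5 2 = -1 := by
    rw [hv, hs_rat_comm (by norm_num) (by norm_num)]; exact hv_two_two_five
  have h12 : hv two (-1) 2 = 1 := by
    rw [hv, hs_rat_comm (by norm_num) (by norm_num)]; exact hv_two_two_neg_one
  rcases exists_rep_two hn with ⟨h, hr⟩ | ⟨h, hr⟩ | ⟨h, hr⟩ | ⟨h, hr⟩ <;>
    rw [hv_two_congr hr (by norm_num)] <;>
    simp only [signIf, h] <;> norm_num
  · rw [hv, Rat.cast_one, hs_one_left]
  · rw [hv_two_neg_five (by norm_num), h12, h52]; rfl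
  · exact h52
  · exact h12

lemma hv_two_odd_odd {m n : ℤ} (hm : m % 2 = 1) (hn : n % 2 = 1) :
    hv two (m : ℚ) (n : ℚ) = signIf (m % 4 = 3 ∧ n % 4 = 3) := by
  have hn0 : (n : ℚ) ≠ 0 := Int.cast_ne_zero.2 (by omega)
  have h1n : hv two (-1) (n : ℚ) = signIf (n % 4 = 3) := by
    rw [hv, hs_rat_comm (by norm_num) hn0]; exact hv_two_odd_neg_one hn
  have h5n : hv two 5 (n : ℚ) = 1 := by
    rw [hv, hs_rat_comm (by norm_num) hn0]; exact hv_two_odd_five hn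
  rcases exists_rep_two hm with ⟨h, hr⟩ | ⟨h, hr⟩ | ⟨h, hr⟩ | ⟨h, hr⟩ <;>
    rw [hv_two_congr hr hn0] <;>
    simp only [show m % 4 = (m % 8) % 4 by omega, h] <;> norm_num
  · rw [hv, Rat.cast_one, hs_one_left]; rfl
  · rw [hv_two_neg_five hn0, h1n, h5n, mul_one]
  · rw [h5n]; rfl
  · exact h1n

end Two

section Infinity

lemma hinf_of_nonneg_right {a b : ℚ} (hb : 0 < b) : hinf a b = 1 := by
  refine hs_of_isSquareIn_right ⟨(Real.sqrt b : ℂ), IntermediateField.algebraMap_mem _ _, ?_⟩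
    (by exact_mod_cast hb.ne') (ratCast_mem_bot a)
  rw [← Complex.ofReal_pow, Real.sq_sqrt (by exact_mod_cast hb.le)]
  push_cast
  ring

lemma hinf_neg_one_neg_one : hinf (-1) (-1) = -1 := by
  refine hs_eq_neg_one_iff.2 ?_
  rintro ⟨x, hx, y, hy, hxy⟩
  obtain ⟨a, rfl⟩ := IntermediateField.mem_bot.1 hx
  obtain ⟨b, rfl⟩ := IntermediateField.mem_bot.1 hy
  have h := congrArg Complex.re hxy
  simp [sq] at h
  nlinarith [mul_self_nonneg a, mul_self_nonneg b]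

end Infinity

/-- A prime number as a place. -/
def mkPrime (p : ℕ) (hp : p.Prime) : Nat.Primes := ⟨p, hp⟩

lemma natCast_prime_eq_intCast (p : ℕ) : ((p : ℕ) : ℚ) = ((p : ℤ) : ℚ) := by push_cast; ring

lemma hv_prime_prime_of_ne {p l : ℕ} (hp : p.Prime) (hl : l.Prime) {v : Nat.Primes}
    (h2 : (v : ℕ) ≠ 2) (hvp : (v : ℕ) ≠ p) (hvl : (v : ℕ) ≠ l) : hv v p l = 1 := by
  rw [natCast_prime_eq_intCast p, natCast_prime_eq_intCast l]
  exact hv_units h2
    (fun h => hvp ((Nat.prime_dvd_prime_iff_eq v.2 hp).1 (Int.natCast_dvd_natCast.1 h)))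
    (fun h => hvl ((Nat.prime_dvd_prime_iff_eq v.2 hl).1 (Int.natCast_dvd_natCast.1 h)))

lemma not_dvd_neg_one (v : Nat.Primes) : ¬ ((v : ℕ) : ℤ) ∣ (-1) := fun h => by
  have := Int.natAbs_dvd_natAbs.2 h
  simp at this
  exact v.2.one_lt.ne' this

lemma not_dvd_prime {v : Nat.Primes} {p : ℕ} (hp : p.Prime) (h : (v : ℕ) ≠ p) :
    ¬ ((v : ℕ) : ℤ) ∣ (p : ℤ) := fun hd =>
  h ((Nat.prime_dvd_prime_iff_eq v.2 hp).1 (Int.natCast_dvd_natCast.1 hd))

lemma recipQ_neg_one_neg_one : RecipQ (-1) (-1) := by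
  refine recip_of_finset {two} (fun v hv' => ?_) ?_
  · have h2 : (v : ℕ) ≠ 2 := fun h => hv' (Finset.mem_singleton.2 (Subtype.ext h))
    simpa using hv_units h2 (not_dvd_neg_one v) (not_dvd_neg_one v)
  · rw [prod_singleton, hinf_neg_one_neg_one, hv_two_neg_one_neg_one]; decide

lemma recipQ_neg_one_prime {p : ℕ} (hp : p.Prime) : RecipQ (-1) p := by
  have hp0 : (p : ℚ) ≠ 0 := Nat.cast_ne_zero.2 hp.ne_zero
  have hg : hinf (-1) p = 1 := hinf_of_nonneg_right (Nat.cast_pos.2 hp.pos)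
  rcases eq_or_ne p 2 with rfl | hp2
  · refine recip_of_finset {two} (fun v hv' => ?_) ?_
    · have h2 : (v : ℕ) ≠ 2 := fun h => hv' (Finset.mem_singleton.2 (Subtype.ext h))
      simpa using hv_units h2 (not_dvd_neg_one v) (not_dvd_prime Nat.prime_two h2)
    · rw [prod_singleton, hg, one_mul, hv, hs_rat_comm (by norm_num) hp0]
      exact_mod_cast hv_two_two_neg_one
  · refine recip_pair two (mkPrime p hp) (fun h => hp2 (congrArg Subtype.val h).symm)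
      (fun v hv1 hv2 => ?_) ?_
    · simpa using hv_units (fun h => hv1 (Subtype.ext h)) (not_dvd_neg_one v)
        (not_dvd_prime hp fun h => hv2 (Subtype.ext h))
    · have : Fact p.Prime := ⟨hp⟩
      have hodd : p % 2 = 1 := (hp.eq_two_or_odd).resolve_left hp2
      have e1 : ((hv (mkPrime p hp) (p : ℚ) (-1) : ℤˣ) : ℤ) = legendreSym p (-1) := by
        have h := coe_hv_prime (v := mkPrime p hp) hp2 (not_dvd_neg_one (mkPrime p hp))
        rw [Int.cast_neg, Int.cast_one] at h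
        exact h
      have e2 := hv_two_odd_neg_one (n := (p : ℤ)) (by omega)
      replace e1 := e1.trans ((legendreSym.at_neg_one hp2).trans (ZMod.χ₄_nat_eq_if_mod_four p))
      rw [hg, one_mul, hv, hv,
        hs_rat_comm (by norm_num) hp0, hs_rat_comm (by norm_num) hp0, Units.ext_iff, Units.val_mul,
        Units.val_one]
      simp only [hv, Int.cast_natCast] at e1 e2
      rw [e1, e2, signIf]
      split_ifs <;> first | rfl | omega

lemma recipQ_prime_prime {p l : ℕ} (hp : p.Prime) (hl : l.Prime) (hpl : p ≠ l) (hl2 : l ≠ 2) :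
    RecipQ p l := by
  have : Fact p.Prime := ⟨hp⟩
  have : Fact l.Prime := ⟨hl⟩
  have hp0 : (p : ℚ) ≠ 0 := Nat.cast_ne_zero.2 hp.ne_zero
  have hl0 : (l : ℚ) ≠ 0 := Nat.cast_ne_zero.2 hl.ne_zero
  have hg : hinf p l = 1 := hinf_of_nonneg_right (Nat.cast_pos.2 hl.pos)
  have hlodd : l % 2 = 1 := (hl.eq_two_or_odd).resolve_left hl2
  have el : ((hv (mkPrime l hl) (p : ℚ) (l : ℚ) : ℤˣ) : ℤ) = legendreSym l p := by
    rw [hv, hs_rat_comm hp0 hl0]
    have := coe_hv_prime (v := mkPrime l hl) hl2 (u := (p : ℤ)) (not_dvd_prime hp hpl.symm)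
    rw [← natCast_prime_eq_intCast] at this
    exact this
  rcases eq_or_ne p 2 with rfl | hp2
  · refine recip_pair two (mkPrime l hl) (fun h => hl2 (congrArg Subtype.val h).symm)
      (fun v hv1 hv2 => ?_) ?_
    · exact hv_prime_prime_of_ne Nat.prime_two hl (fun h => hv1 (Subtype.ext h))
        (fun h => hv1 (Subtype.ext h)) (fun h => hv2 (Subtype.ext h))
    · have e2 := hv_two_odd_two (n := (l : ℤ)) (by omega)
      rw [Int.cast_natCast] at e2
      rw [hg, one_mul, Units.ext_iff,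
        Units.val_mul, Units.val_one, el, show ((2 : ℕ) : ℤ) = 2 from rfl, legendreSym.at_two hl2,
        ZMod.χ₈_nat_eq_if_mod_eight, hv, hs_rat_comm hp0 hl0, Nat.cast_ofNat]
      simp only [hv] at e2
      rw [e2, signIf]
      split_ifs <;> first | rfl | omega
  · have hpodd : p % 2 = 1 := (hp.eq_two_or_odd).resolve_left hp2
    refine recip_triple two (mkPrime p hp) (mkPrime l hl)
      (fun h => hp2 (congrArg Subtype.val h).symm) (fun h => hl2 (congrArg Subtype.val h).symm)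
      (fun h => hpl (congrArg Subtype.val h)) (fun v hv1 hv2 hv3 => ?_) ?_
    · exact hv_prime_prime_of_ne hp hl (fun h => hv1 (Subtype.ext h))
        (fun h => hv2 (Subtype.ext h)) (fun h => hv3 (Subtype.ext h))
    · have ep : ((hv (mkPrime p hp) (p : ℚ) (l : ℚ) : ℤˣ) : ℤ) = legendreSym p l := by
        have h := coe_hv_prime (v := mkPrime p hp) hp2 (u := (l : ℤ)) (not_dvd_prime hl hpl)
        rw [← natCast_prime_eq_intCast] at h
        exact h
      have e2 := hv_two_odd_odd (m := (p : ℤ)) (n := (l : ℤ)) (by omega) (by omega)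
      rw [← natCast_prime_eq_intCast, ← natCast_prime_eq_intCast] at e2
      rw [hg, one_mul,
        Units.ext_iff, Units.val_mul, Units.val_mul, Units.val_one, ep, el, e2,
        legendreSym.quadratic_reciprocity hl2 hp2 hpl.symm, signIf]
      have hhalf : ∀ n : ℕ, n % 2 = 1 → (Odd (n / 2) ↔ n % 4 = 3) := fun n hn => by
        rw [Nat.odd_iff]; omega
      split_ifs with h
      · rw [Odd.neg_one_pow (Nat.odd_mul.2 ⟨(hhalf l hlodd).2 (by omega),
          (hhalf p hpodd).2 (by omega)⟩)]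
        rfl
      · rw [Even.neg_one_pow (Nat.not_odd_iff_even.1 fun ho =>
          h ⟨by have := (hhalf p hpodd).1 (Nat.odd_mul.1 ho).2; omega,
            by have := (hhalf l hlodd).1 (Nat.odd_mul.1 ho).1; omega⟩)]
        rfl

/-- The product formula. -/
theorem recipQ {a b : ℚ} (ha : a ≠ 0) (hb : b ≠ 0) : RecipQ a b := by
  have hpp : ∀ p l : ℕ, p.Prime → l.Prime → RecipQ p l := by
    intro p l hp hl
    have hp0 : (p : ℚ) ≠ 0 := Nat.cast_ne_zero.2 hp.ne_zero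
    have hl0 : (l : ℚ) ≠ 0 := Nat.cast_ne_zero.2 hl.ne_zero
    rcases eq_or_ne p l with rfl | hne
    · exact ((recipQ_neg_one_prime hp).symm (by norm_num) hp0).congr (hs_rat_self hp0)
        fun _ => hs_rat_self hp0
    rcases eq_or_ne l 2 with rfl | hl2
    · exact (recipQ_prime_prime hl hp hne.symm hne).symm hl0 hp0
    · exact recipQ_prime_prime hp hl hne hl2
  have hneg : ∀ b : ℚ, b ≠ 0 → RecipQ b (-1) := fun b hb =>
    recipQ_left_of_gens (by norm_num) recipQ_neg_one_neg_one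
      (fun p hp => (recipQ_neg_one_prime hp).symm (by norm_num) (Nat.cast_ne_zero.2 hp.ne_zero)) hb
  refine recipQ_left_of_gens hb ((hneg b hb).symm hb (by norm_num)) (fun p hp => ?_) ha
  have hp0 : (p : ℚ) ≠ 0 := Nat.cast_ne_zero.2 hp.ne_zero
  exact (recipQ_left_of_gens hp0 (recipQ_neg_one_prime hp) (fun l hl => hpp l p hl hp) hb).symm
    hb hp0

end Fermat.Agent.TwoAdic.Symbol

end
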