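import Fermat.Agent.TwoAdic.Symbol.Place
import Fermat.Agent.TwoAdic.Symbol.Rat
import Mathlib.FieldTheory.Normal.Basic
import Mathlib.FieldTheory.Separable

/-!
# The product formula for the cubic pairing

Every element of a cubic field is a ratio of two linear forms in a root, so by bilinearity and the
Steinberg relation the product formula follows from the one over `ℚ` by the projection formula.
-/

set_option autoImplicit false

noncomputable section

open scoped IntermediateField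

namespace Fermat.Agent.TwoAdic.Symbol

open Fermat.Agent.TwoAdic.Selmer
open Fermat.Agent.ClassField.Idele

local notation "ℚ̄" => AlgebraicClosure ℚ
local notation "Γℚ" => (AlgebraicClosure ℚ ≃ₐ[ℚ] AlgebraicClosure ℚ)

instance isQuadraticExtension_real_complex : Algebra.IsQuadraticExtension ℝ ℂ :=
  ⟨Complex.finrank_real_complex⟩

instance isGalois_real_complex : IsGalois ℝ ℂ := Algebra.IsQuadraticExtension.isGalois ℝ ℂ

/-- The standard place at `v`. -/
def padicPl (v : Nat.Primes) : Place ℚ_[(v : ℕ)] (PadicAlgCl (v : ℕ)) where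
  emb := (padicEmbedding (v : ℕ)).toRingHom
  glob := localGaloisToGlobal (v : ℕ)
  emb_glob := padicEmbedding_localGaloisToGlobal (v : ℕ)

lemma exists_infinityGlob :
    ∃ g : (ℂ ≃ₐ[ℝ] ℂ) →* Γℚ, ∀ τ x, complexEmbedding (g τ x) = τ (complexEmbedding x) := by
  let _ : Algebra ℚ̄ ℂ := complexEmbedding.toRingHom.toAlgebra
  have : IsScalarTower ℚ ℚ̄ ℂ := IsScalarTower.of_algebraMap_eq' (Subsingleton.elim _ _)
  have : IsScalarTower ℚ ℝ ℂ := IsScalarTower.of_algebraMap_eq' (Subsingleton.elim _ _)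
  have : Normal ℚ ℚ̄ := IsAlgClosure.normal ℚ ℚ̄
  exact ⟨(AlgEquiv.restrictNormalHom (F := ℚ) (K₁ := ℂ) ℚ̄).comp
    (MonoidHom.mk' (fun τ => τ.restrictScalars ℚ) fun _ _ => rfl),
    fun τ x => AlgEquiv.restrictNormal_commutes (τ.restrictScalars ℚ) ℚ̄ x⟩

/-- The place at infinity. -/
def infPl : Place ℝ ℂ where
  emb := complexEmbedding.toRingHom
  glob := exists_infinityGlob.choose
  emb_glob := exists_infinityGlob.choose_spec

lemma complexConjugation_eq_glob_conj : infPl.glob Complex.conjAe = complexConjugation := by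
  refine AlgEquiv.ext fun x => complexEmbedding.toRingHom.injective ?_
  exact (infPl.emb_glob _ x).trans (complexEmbedding_complexConjugation x).symm

section Generic

variable {k K : Type*} [Field k] [Field K] [Algebra k K] [CharZero K] [IndexTwo k K]
  {F : IntermediateField k K} [FiniteDimensional k F] {x y d : K}

/-- The symbol of two elements with a given difference. -/
lemma hs_of_sub (hx : x ∈ F) (hy : y ∈ F) (hd : d ∈ F) (hx0 : x ≠ 0) (hy0 : y ≠ 0) (hd0 : d ≠ 0)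
    (h : x - y = d) : hs F x y = hs F x (-d) * hs F d y := by
  have hxd0 : x / d ≠ 0 := div_ne_zero hx0 hd0
  have h1 : 1 - x / d ≠ 0 := by
    rw [sub_ne_zero, ne_comm, Ne, div_eq_one_iff_eq hd0]
    intro h2
    exact hy0 (by linear_combination h2 - h)
  have hst : hs F (x / d) (1 - x / d) = 1 := hs_steinberg (div_mem hx hd) h1
  have hd2 : d * d ≠ 0 := mul_ne_zero hd0 hd0
  have hxd : hs F (x * d) (y * -d) = 1 := by
    have e1 : x * d = (x / d) * (d ^ 2) := by field_simp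
    have e2 : y * -d = (1 - x / d) * (d ^ 2) := by
      rw [show y = x - d by linear_combination -h]
      field_simp
      ring
    have hy1 : y * -d ∈ F := mul_mem hy (neg_mem hd)
    rw [e1, hs_mul_left (div_mem hx hd) (pow_mem hd 2) hy1 hxd0 (pow_ne_zero 2 hd0)
      (mul_ne_zero hy0 (neg_ne_zero.2 hd0)), hs_sq_left hd, mul_one, e2,
      hs_mul_right (div_mem hx hd) (sub_mem (one_mem F) (div_mem hx hd)) (pow_mem hd 2) hxd0 h1
        (pow_ne_zero 2 hd0), hst, one_mul,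
      hs_of_isSquareIn_right ⟨d, hd, rfl⟩ (pow_ne_zero 2 hd0) (div_mem hx hd)]
  rw [hs_mul_left hx hd (mul_mem hy (neg_mem hd)) hx0 hd0 (mul_ne_zero hy0 (neg_ne_zero.2 hd0)),
    hs_mul_right hx hy (neg_mem hd) hx0 hy0 (neg_ne_zero.2 hd0),
    hs_mul_right hd hy (neg_mem hd) hd0 hy0 (neg_ne_zero.2 hd0), hs_self_neg hd hd0, mul_one,
    mul_assoc] at hxd
  rw [eq_inv_of_mul_eq_one_left hxd, Int.units_inv_eq_self]

/-- The symbol of an element with itself. -/
lemma hs_self (hx : x ∈ F) (hx0 : x ≠ 0) : hs F x x = hs F x (-1) := by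
  have h := hs_mul_right hx (neg_mem hx) (neg_mem (one_mem F)) hx0 (neg_ne_zero.2 hx0)
    (neg_ne_zero.2 (one_ne_zero : (1 : K) ≠ 0))
  rw [hs_self_neg hx hx0, one_mul, neg_mul_neg, mul_one] at h
  exact h

end Generic

variable {T : CubicRoots}

/-- A family of algebraic numbers indexed by the roots, compatible with the Galois action. -/
def IsFam (T : CubicRoots) (A : Fin 3 → ℚ̄) : Prop := ∀ σ i, σ (A i) = A (T.perm σ i)

section Place

variable {k K : Type*} [Field k] [Field K] [Algebra k K] {P : Place k K} {A B : Fin 3 → ℚ̄}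

lemma IsFam.local (hA : IsFam T A) : IsLocalFam T P (P.emb ∘ A) := fun τ i => by
  simp only [Function.comp]
  rw [← P.emb_glob, hA]
  rfl

lemma emb_comp_ne_zero (P : Place k K) (hA0 : ∀ i, A i ≠ 0) : ∀ i, (P.emb ∘ A) i ≠ 0 :=
  fun i => (map_ne_zero _).2 (hA0 i)

lemma emb_comp_mul (P : Place k K) : P.emb ∘ (A * B) = (P.emb ∘ A) * (P.emb ∘ B) :=
  funext fun i => map_mul P.emb (A i) (B i)

/-- The local pairing of two global families. -/
def pairingAt (T : CubicRoots) (P : Place k K) (A B : Fin 3 → ℚ̄) : ℤˣ :=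
  pairing T P (P.emb ∘ A) (P.emb ∘ B)

variable [IsGalois k K] [CharZero K] [IndexTwo k K]

omit [CharZero K] in
lemma pairingAt_mul_left {A' : Fin 3 → ℚ̄} (hA : IsFam T A) (hA' : IsFam T A') (hB : IsFam T B)
    (hA0 : ∀ i, A i ≠ 0) (hA'0 : ∀ i, A' i ≠ 0) (hB0 : ∀ i, B i ≠ 0) :
    pairingAt T P (A * A') B = pairingAt T P A B * pairingAt T P A' B := by
  rw [pairingAt, emb_comp_mul]
  exact pairing_mul_left hA.local hA'.local hB.local (emb_comp_ne_zero P hA0)
    (emb_comp_ne_zero P hA'0) (emb_comp_ne_zero P hB0)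

omit [IndexTwo k K] in
lemma pairingAt_comm (hA : IsFam T A) (hB : IsFam T B) (hA0 : ∀ i, A i ≠ 0)
    (hB0 : ∀ i, B i ≠ 0) : pairingAt T P A B = pairingAt T P B A :=
  pairing_comm hA.local hB.local (emb_comp_ne_zero P hA0) (emb_comp_ne_zero P hB0)

lemma pairingAt_const [IsAlgClosed K] (hA : IsFam T A) (hA0 : ∀ i, A i ≠ 0) {c r : ℚ}
    (hc : ∏ i, A i = (c : ℚ̄)) (hr : r ≠ 0) :
    pairingAt T P A (fun _ => (r : ℚ̄)) =
      hs (⊥ : IntermediateField k K) (c : K) (r : K) := by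
  have h := pairing_const (T := T) (P := P) hA.local (emb_comp_ne_zero P hA0)
    (ratCast_mem_bot r) (Rat.cast_ne_zero.2 hr)
  rw [show (∏ i, (P.emb ∘ A) i) = (c : K) by
    simp only [Function.comp]
    rw [← map_prod, hc, map_ratCast]] at h
  rw [pairingAt, show P.emb ∘ (fun _ : Fin 3 => (r : ℚ̄)) = fun _ => (r : K) from
    funext fun _ => map_ratCast P.emb r]
  exact h

lemma pairingAt_of_sub {d : ℚ} (hd : d ≠ 0) (hA : IsFam T A) (hB : IsFam T B)
    (hA0 : ∀ i, A i ≠ 0) (hB0 : ∀ i, B i ≠ 0) (h : ∀ i, A i - B i = (d : ℚ̄)) :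
    pairingAt T P A B =
      pairingAt T P A (fun _ => ((-d : ℚ) : ℚ̄)) * pairingAt T P (fun _ => (d : ℚ̄)) B := by
  rw [pairingAt, pairingAt, pairingAt, pairing, pairing, pairing, ← Finset.prod_mul_distrib]
  refine Finset.prod_congr rfl fun j _ => ?_
  simp only [Function.comp, map_ratCast, Rat.cast_neg, map_neg]
  have e : P.emb (A j) - P.emb (B j) = (d : K) := by rw [← map_sub, h, map_ratCast]
  exact hs_of_sub (hA.local.mem_fld j) (hB.local.mem_fld j)
    ((bot_le : ⊥ ≤ fld T P j) (ratCast_mem_bot d)) (emb_comp_ne_zero P hA0 j)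
    (emb_comp_ne_zero P hB0 j) (Rat.cast_ne_zero.2 hd) e

lemma pairingAt_self (hA : IsFam T A) (hA0 : ∀ i, A i ≠ 0) :
    pairingAt T P A A = pairingAt T P A (fun _ => ((-1 : ℚ) : ℚ̄)) := by
  rw [pairingAt, pairingAt, pairing, pairing]
  exact Finset.prod_congr rfl fun j _ => by
    simp only [Function.comp, Rat.cast_neg, Rat.cast_one, map_neg, map_one]
    exact hs_self (hA.local.mem_fld j) (emb_comp_ne_zero P hA0 j)

end Place

/-- The product formula for two families. -/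
def RecipL (T : CubicRoots) (A B : Fin 3 → ℚ̄) : Prop :=
  Recip (pairingAt T infPl A B) fun v => pairingAt T (padicPl v) A B

variable {A A' B : Fin 3 → ℚ̄}

local instance isGalois_qbar_symbol : IsGalois ℚ ℚ̄ := IsAlgClosure.isGalois ℚ ℚ̄

lemma RecipL.mul_left (hA : IsFam T A) (hA' : IsFam T A') (hB : IsFam T B) (hA0 : ∀ i, A i ≠ 0)
    (hA'0 : ∀ i, A' i ≠ 0) (hB0 : ∀ i, B i ≠ 0) (h : RecipL T A B) (h' : RecipL T A' B) :
    RecipL T (A * A') B :=
  (h.mul h').congr (pairingAt_mul_left hA hA' hB hA0 hA'0 hB0)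
    fun _ => pairingAt_mul_left hA hA' hB hA0 hA'0 hB0

lemma RecipL.of_mul_left (hA : IsFam T A) (hA' : IsFam T A') (hB : IsFam T B)
    (hA0 : ∀ i, A i ≠ 0) (hA'0 : ∀ i, A' i ≠ 0) (hB0 : ∀ i, B i ≠ 0) (h : RecipL T (A * A') B)
    (h' : RecipL T A' B) : RecipL T A B := by
  refine (h.mul h').congr ?_ fun v => ?_ <;>
    rw [pairingAt_mul_left hA hA' hB hA0 hA'0 hB0, mul_assoc, Int.units_mul_self, mul_one]

lemma RecipL.symm (hA : IsFam T A) (hB : IsFam T B) (hA0 : ∀ i, A i ≠ 0) (hB0 : ∀ i, B i ≠ 0)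
    (h : RecipL T A B) : RecipL T B A :=
  h.congr (pairingAt_comm hB hA hB0 hA0) fun _ => pairingAt_comm hB hA hB0 hA0

lemma isFam_const (r : ℚ) : IsFam T fun _ => (r : ℚ̄) := fun σ _ => map_ratCast σ r

lemma IsFam.mul (hA : IsFam T A) (hB : IsFam T B) : IsFam T (A * B) := fun σ i => by
  rw [Pi.mul_apply, map_mul, hA, hB, Pi.mul_apply]

lemma IsFam.exists_prod_eq (hA : IsFam T A) : ∃ c : ℚ, ∏ i, A i = (c : ℚ̄) := by
  have h : ∏ i, A i ∈ (⊥ : IntermediateField ℚ ℚ̄) := mem_of_fixed fun σ _ => by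
    rw [map_prod, Finset.prod_congr rfl fun i _ => hA σ i]
    exact Equiv.prod_comp (T.perm σ) A
  obtain ⟨c, hc⟩ := IntermediateField.mem_bot.1 h
  exact ⟨c, by rw [← hc, eq_ratCast]⟩

lemma recipL_const (hA : IsFam T A) (hA0 : ∀ i, A i ≠ 0) {r : ℚ} (hr : r ≠ 0) :
    RecipL T A (fun _ => (r : ℚ̄)) := by
  obtain ⟨c, hc⟩ := hA.exists_prod_eq
  have hc0 : c ≠ 0 := fun h =>
    Finset.prod_ne_zero_iff.2 (fun i _ => hA0 i) (by rw [hc, h, Rat.cast_zero])
  exact (recipQ hc0 hr).congr (pairingAt_const hA hA0 hc hr) fun v => pairingAt_const hA hA0 hc hr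

/-- A linear form in the root. -/
def lin (T : CubicRoots) (a b : ℚ) (i : Fin 3) : ℚ̄ := (a : ℚ̄) + (b : ℚ̄) * T.root i

lemma isFam_lin (a b : ℚ) : IsFam T (lin T a b) := fun σ i => by
  simp only [lin, map_add, map_mul, map_ratCast, T.apply_root]

lemma lin_ne_zero {a b : ℚ} (h : a ≠ 0 ∨ b ≠ 0) (i : Fin 3) : lin T a b i ≠ 0 := by
  intro h0
  rcases eq_or_ne b 0 with hb | hb
  · exact h.resolve_right (not_not.2 hb) (by simpa [lin, hb] using h0)
  have hi : ∀ j, T.root j = ((-a / b : ℚ) : ℚ̄) := by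
    have hb' : (b : ℚ̄) ≠ 0 := Rat.cast_ne_zero.2 hb
    have h1 : T.root i = ((-a / b : ℚ) : ℚ̄) := by
      rw [lin] at h0
      push_cast
      rw [eq_div_iff hb']
      linear_combination h0
    intro j
    obtain ⟨σ, rfl⟩ := T.transitive i
    obtain ⟨τ, rfl⟩ := T.transitive j
    have h2 : T.root (T.perm τ 0) = τ (σ⁻¹ (T.root (T.perm σ 0))) := by
      rw [← T.apply_root, ← T.apply_root, ← AlgEquiv.mul_apply σ⁻¹, inv_mul_cancel,
        AlgEquiv.one_apply]
    rw [h2, h1, map_ratCast, map_ratCast]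
  exact absurd (T.root_injective ((hi 0).trans (hi 1).symm)) (by decide)

lemma recipL_monic_monic (s t : ℚ) : RecipL T (lin T (-s) 1) (lin T (-t) 1) := by
  have hs : ∀ u : ℚ, IsFam T (lin T (-u) 1) := fun u => isFam_lin _ _
  have hs0 : ∀ u : ℚ, ∀ i, lin T (-u) 1 i ≠ 0 := fun u => lin_ne_zero (Or.inr one_ne_zero)
  rcases eq_or_ne s t with rfl | hne
  · exact (recipL_const (hs s) (hs0 s) (by norm_num : (-1 : ℚ) ≠ 0)).congr
      (pairingAt_self (hs s) (hs0 s)) fun v => pairingAt_self (hs s) (hs0 s)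
  have hd : t - s ≠ 0 := sub_ne_zero.2 hne.symm
  have h : ∀ i, lin T (-s) 1 i - lin T (-t) 1 i = ((t - s : ℚ) : ℚ̄) := fun i => by
    simp only [lin]; push_cast; ring
  have h1 := recipL_const (hs s) (hs0 s) (neg_ne_zero.2 hd)
  have h2 := (recipL_const (hs t) (hs0 t) hd).symm (hs t) (isFam_const _) (hs0 t)
    fun _ => Rat.cast_ne_zero.2 hd
  exact (h1.mul h2).congr (pairingAt_of_sub hd (hs s) (hs t) (hs0 s) (hs0 t) h)
    fun v => pairingAt_of_sub hd (hs s) (hs t) (hs0 s) (hs0 t) h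

lemma exists_lin_eq {a b : ℚ} (h : a ≠ 0 ∨ b ≠ 0) :
    (∃ r : ℚ, r ≠ 0 ∧ lin T a b = fun _ => (r : ℚ̄)) ∨
      ∃ r s : ℚ, r ≠ 0 ∧ lin T a b = (fun _ => (r : ℚ̄)) * lin T (-s) 1 := by
  rcases eq_or_ne b 0 with rfl | hb
  · exact Or.inl ⟨a, h.resolve_right (by simp), funext fun i => by simp [lin]⟩
  · refine Or.inr ⟨b, -a / b, hb, funext fun i => ?_⟩
    have hb' : (b : ℚ̄) ≠ 0 := Rat.cast_ne_zero.2 hb
    simp only [lin, Pi.mul_apply]
    push_cast
    field_simp

lemma recipL_lin_left (hB : IsFam T B) (hB0 : ∀ i, B i ≠ 0)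
    (hm : ∀ s : ℚ, RecipL T (lin T (-s) 1) B) {a b : ℚ} (h : a ≠ 0 ∨ b ≠ 0) :
    RecipL T (lin T a b) B := by
  have hc : ∀ r : ℚ, r ≠ 0 → RecipL T (fun _ => (r : ℚ̄)) B := fun r hr =>
    (recipL_const hB hB0 hr).symm hB (isFam_const r) hB0 fun _ => Rat.cast_ne_zero.2 hr
  rcases exists_lin_eq (T := T) h with ⟨r, hr, e⟩ | ⟨r, s, hr, e⟩ <;> rw [e]
  · exact hc r hr
  · exact RecipL.mul_left (isFam_const r) (isFam_lin _ _) hB (fun _ => Rat.cast_ne_zero.2 hr)
      (lin_ne_zero (Or.inr one_ne_zero)) hB0 (hc r hr) (hm s)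

lemma recipL_lin_lin {a b c d : ℚ} (h : a ≠ 0 ∨ b ≠ 0) (h' : c ≠ 0 ∨ d ≠ 0) :
    RecipL T (lin T a b) (lin T c d) :=
  recipL_lin_left (isFam_lin c d) (lin_ne_zero h') (fun s =>
    (recipL_lin_left (isFam_lin _ _) (lin_ne_zero (Or.inr one_ne_zero))
      (fun t => recipL_monic_monic t s) h').symm (isFam_lin _ _) (isFam_lin _ _)
      (lin_ne_zero h') (lin_ne_zero (Or.inr one_ne_zero))) h

lemma natDegree_minpoly_root_le : (minpoly ℚ (T.root 0)).natDegree ≤ 3 := by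
  classical
  have hint : IsIntegral ℚ (T.root 0) := Algebra.IsIntegral.isIntegral _
  rw [← Polynomial.card_rootSet_eq_natDegree (K := ℚ̄) (minpoly.irreducible hint).separable
    (IsAlgClosed.splits _)]
  refine le_trans ?_ (Fintype.card_fin 3).le
  refine Fintype.card_le_of_surjective
    (fun i : Fin 3 => (⟨T.root i, ?_⟩ : (minpoly ℚ (T.root 0)).rootSet ℚ̄)) ?_
  · obtain ⟨σ, rfl⟩ := T.transitive i
    rw [Polynomial.mem_rootSet_of_ne (minpoly.ne_zero hint), ← T.apply_root,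
      show σ (T.root 0) = σ.toAlgHom (T.root 0) from rfl, Polynomial.aeval_algHom_apply,
      minpoly.aeval, map_zero]
  · rintro ⟨y, hy⟩
    rw [Polynomial.mem_rootSet_of_ne (minpoly.ne_zero hint)] at hy
    have : Normal ℚ ℚ̄ := IsAlgClosure.normal ℚ ℚ̄
    obtain ⟨σ, hσ⟩ := minpoly.exists_algEquiv_of_root' (Algebra.IsAlgebraic.isAlgebraic (T.root 0))
      hy
    exact ⟨T.perm σ 0, Subtype.ext ((T.apply_root σ 0).symm.trans hσ)⟩

lemma IsFam.mem_adjoin (hA : IsFam T A) : A 0 ∈ ℚ⟮T.root 0⟯ := by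
  refine mem_of_fixed fun σ hσ => ?_
  have h := hσ _ (IntermediateField.mem_adjoin_simple_self ℚ _)
  rw [T.apply_root] at h
  rw [hA, T.root_injective h]

/-- Every family is a ratio of two linear forms. -/
lemma exists_lin_ratio (hA : IsFam T A) (hA0 : ∀ i, A i ≠ 0) :
    ∃ a b c d : ℚ, (a ≠ 0 ∨ b ≠ 0) ∧ (c ≠ 0 ∨ d ≠ 0) ∧ A * lin T a b = lin T c d := by
  have hint : IsIntegral ℚ (T.root 0) := Algebra.IsIntegral.isIntegral _
  have : FiniteDimensional ℚ ℚ⟮T.root 0⟯ := IntermediateField.adjoin.finiteDimensional hint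
  set θ : ℚ⟮T.root 0⟯ := ⟨T.root 0, IntermediateField.mem_adjoin_simple_self ℚ _⟩
  set α : ℚ⟮T.root 0⟯ := ⟨A 0, hA.mem_adjoin⟩
  have hdep : ¬ LinearIndependent ℚ ![1, θ, α, α * θ] := fun hli => by
    have h4 := hli.fintype_card_le_finrank
    rw [IntermediateField.adjoin.finrank hint, Fintype.card_fin] at h4
    have := natDegree_minpoly_root_le (T := T)
    omega
  obtain ⟨g, hg, j, hj⟩ := Fintype.not_linearIndependent_iff.1 hdep
  have h0 : (g 0 : ℚ̄) + (g 1 : ℚ̄) * T.root 0 + (g 2 : ℚ̄) * A 0 +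
      (g 3 : ℚ̄) * (A 0 * T.root 0) = 0 := by
    have := congrArg (fun z : ℚ⟮T.root 0⟯ => (z : ℚ̄)) hg
    simpa [Fin.sum_univ_four, θ, α, Algebra.smul_def] using this
  refine ⟨-g 2, -g 3, g 0, g 1, ?_⟩
  have heq : A * lin T (-g 2) (-g 3) = lin T (g 0) (g 1) := by
    funext i
    obtain ⟨σ, rfl⟩ := T.transitive i
    rw [Pi.mul_apply, ← hA, ← isFam_lin _ _ σ 0, ← isFam_lin _ _ σ 0, ← map_mul]
    refine congrArg σ ?_
    simp only [lin]
    push_cast
    linear_combination -h0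
  have hab : -g 2 ≠ 0 ∨ -g 3 ≠ 0 := by
    by_contra hcon
    push Not at hcon
    obtain ⟨h2, h3⟩ := hcon
    rw [neg_eq_zero] at h2 h3
    have h := congrFun heq 0
    rw [Pi.mul_apply, h2, h3] at h
    simp only [lin, neg_zero, Rat.cast_zero, zero_mul, add_zero, mul_zero] at h
    by_cases h01 : g 0 ≠ 0 ∨ g 1 ≠ 0
    · exact lin_ne_zero (T := T) h01 0 h.symm
    · push Not at h01
      fin_cases j
      exacts [hj h01.1, hj h01.2, hj h2, hj h3]
  refine ⟨hab, ?_, heq⟩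
  by_contra hcon
  push Not at hcon
  have h := congrFun heq 0
  rw [Pi.mul_apply, hcon.1, hcon.2] at h
  refine mul_ne_zero (hA0 0) (lin_ne_zero (T := T) hab 0) ?_
  rw [h]
  simp [lin]

/-- The product formula of the cubic pairing. -/
theorem recipL (hA : IsFam T A) (hB : IsFam T B) (hA0 : ∀ i, A i ≠ 0) (hB0 : ∀ i, B i ≠ 0) :
    RecipL T A B := by
  have hlinA : ∀ c d : ℚ, c ≠ 0 ∨ d ≠ 0 → RecipL T A (lin T c d) := by
    intro c d h'
    obtain ⟨a, b, a', b', h, hne, heq⟩ := exists_lin_ratio hA hA0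
    refine RecipL.of_mul_left hA (isFam_lin a b) (isFam_lin c d) hA0 (lin_ne_zero h)
      (lin_ne_zero h') ?_ (recipL_lin_lin h h')
    rw [heq]
    exact recipL_lin_lin hne h'
  obtain ⟨a, b, a', b', h, hne, heq⟩ := exists_lin_ratio hB hB0
  refine RecipL.symm hB hA hB0 hA0 (RecipL.of_mul_left hB (isFam_lin a b) hA hB0 (lin_ne_zero h)
    hA0 ?_ ((hlinA a b h).symm hA (isFam_lin a b) hA0 (lin_ne_zero h)))
  rw [heq]
  exact (hlinA a' b' hne).symm hA (isFam_lin a' b') hA0 (lin_ne_zero hne)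

end Fermat.Agent.TwoAdic.Symbol

end
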