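import Fermat.Agent.TwoAdic.Symbol.Basic
import Fermat.Agent.ClassField.LocalUnitNorms
import Mathlib.Analysis.Complex.Basic
import Mathlib.Analysis.Complex.Polynomial.Basic
import Mathlib.GroupTheory.Index

/-!
# The index of quadratic norm groups over `ℚ_q` and over `ℝ`
-/

set_option autoImplicit false

noncomputable section

namespace Fermat.Agent.TwoAdic.Symbol

section Padic

open IntermediateField
open Fermat.Agent.ClassField

variable {q : ℕ} [Fact q.Prime]

/-- The norm group of `F(s)`, `s ^ 2 = b`, has index two and consists of the `x ^ 2 - b * y ^ 2`. -/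
theorem exists_normSubgroup (F : IntermediateField ℚ_[q] (PadicAlgCl q))
    [FiniteDimensional ℚ_[q] F] {b : PadicAlgCl q} (hb : b ∈ F) (hns : ¬ IsSquareIn F b) :
    ∃ R : Subgroup Fˣ, R.index = 2 ∧
      ∀ u : Fˣ, u ∈ R ↔ IsNormOf F b ((u : F) : PadicAlgCl q) := by
  classical
  obtain ⟨s, hs⟩ := IsAlgClosed.exists_pow_nat_eq b (n := 2) two_pos
  have hsF : s ∉ F := fun h => hns ⟨s, h, hs⟩
  have hint : IsIntegral F s := IsIntegral.of_pow two_pos (by
    rw [hs]; exact isIntegral_algebraMap (R := F) (x := ⟨b, hb⟩))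
  set E₀ : IntermediateField F (PadicAlgCl q) := F⟮s⟯
  have hle : F ≤ E₀.restrictScalars ℚ_[q] := fun x hx =>
    E₀.algebraMap_mem (⟨x, hx⟩ : F)
  have hfinF : FiniteDimensional F E₀ := adjoin.finiteDimensional hint
  have : FiniteDimensional ℚ_[q] (E₀.restrictScalars ℚ_[q]) :=
    (FiniteDimensional.trans ℚ_[q] F E₀ : FiniteDimensional ℚ_[q] E₀)
  set E : IntermediateField F (PadicAlgCl q) := IntermediateField.extendScalars hle
  have hEE : E = E₀ := IntermediateField.ext fun x => Iff.rfl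
  have hsE : s ∈ E := by rw [hEE]; exact mem_adjoin_simple_self F s
  have hrank : Module.finrank F E = 2 := by
    rw [hEE, adjoin.finrank hint]
    refine le_antisymm ?_ ?_
    · have hdvd : minpoly F s ∣ Polynomial.X ^ 2 - Polynomial.C (⟨b, hb⟩ : F) := by
        refine minpoly.dvd F s ?_
        simp only [map_sub, map_pow, Polynomial.aeval_X, Polynomial.aeval_C, hs]
        exact sub_self b
      have h := Polynomial.natDegree_le_of_dvd hdvd (Polynomial.X_pow_sub_C_ne_zero two_pos _)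
      rwa [Polynomial.natDegree_X_pow_sub_C] at h
    · exact (minpoly.two_le_natDegree_iff hint).2 fun ⟨z, hz⟩ => hsF (hz ▸ z.2)
  have : FiniteDimensional F E := FiniteDimensional.of_finrank_eq_succ hrank
  have : Algebra.IsQuadraticExtension F E := ⟨hrank⟩
  obtain ⟨σ, hσ⟩ : ∃ σ : Gal(E/F), σ ≠ 1 := by
    have h : Nat.card Gal(E/F) = 2 := by rw [IsGalois.card_aut_eq_finrank, hrank]
    have : Nontrivial Gal(E/F) := Finite.one_lt_card_iff_nontrivial.1 (by omega)
    exact exists_ne 1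
  have huniv : (Finset.univ : Finset Gal(E/F)) = {1, σ} := by
    refine (Finset.eq_univ_of_card _ ?_).symm
    rw [Finset.card_pair (Ne.symm hσ), ← Nat.card_eq_fintype_card, IsGalois.card_aut_eq_finrank,
      hrank]
  have hfix : ∀ z : E, σ z = z → (z : PadicAlgCl q) ∈ F := by
    intro z hz
    have hz' : z ∈ (⊥ : IntermediateField F E) := by
      rw [← IsGalois.fixedField_top, IntermediateField.mem_fixedField_iff]
      intro τ _
      have : τ ∈ ({1, σ} : Finset Gal(E/F)) := huniv ▸ Finset.mem_univ τ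
      rcases Finset.mem_insert.1 this with h | h
      · rw [h]; rfl
      · rw [Finset.mem_singleton.1 h]; exact hz
    obtain ⟨w, hw⟩ := IntermediateField.mem_bot.1 hz'
    rw [← hw]
    exact w.2
  have hσs : σ ⟨s, hsE⟩ = -⟨s, hsE⟩ := by
    have h : (σ ⟨s, hsE⟩) ^ 2 = (⟨s, hsE⟩ : E) ^ 2 := by
      rw [← map_pow]
      have : (⟨s, hsE⟩ : E) ^ 2 = algebraMap F E ⟨b, hb⟩ := Subtype.ext hs
      rw [this, AlgEquiv.commutes]
    rcases sq_eq_sq_iff_eq_or_eq_neg.1 h with h | h
    · exact absurd (hfix _ h) hsF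
    · exact h
  have hnorm : ∀ z : E, (algebraMap F E (Algebra.norm F z)) = z * σ z := fun z => by
    rw [Algebra.norm_eq_prod_automorphisms, huniv, Finset.prod_pair (Ne.symm hσ)]
    rfl
  refine ⟨(Units.map (Algebra.norm F : E →* F)).range, ?_, fun u => ⟨?_, ?_⟩⟩
  · rw [← hrank]; exact PadicFields.index_norm_range_ext hle
  · rintro ⟨z, rfl⟩
    set σz := σ (z : E)
    have hσσ : σ σz = z := by
      have h : σ * σ = 1 := by
        have : σ * σ ∈ ({1, σ} : Finset Gal(E/F)) := huniv ▸ Finset.mem_univ _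
        rcases Finset.mem_insert.1 this with h | h
        · exact h
        · exact absurd (mul_eq_right.1 (Finset.mem_singleton.1 h)) hσ
      exact DFunLike.congr_fun h (z : E)
    have h2 : ((2 : E) : PadicAlgCl q) = 2 := rfl
    have hx : ((z : E) + σz : E) * (2 : E)⁻¹ = σ (((z : E) + σz) * (2 : E)⁻¹) := by
      rw [map_mul, map_add, hσσ, map_inv₀, map_ofNat, add_comm]
    have hy : ((z : E) - σz) * (2 * ⟨s, hsE⟩ : E)⁻¹ =
        σ (((z : E) - σz) * (2 * ⟨s, hsE⟩ : E)⁻¹) := by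
      rw [map_mul, map_sub, hσσ, map_inv₀, map_mul, map_ofNat, hσs, mul_neg, inv_neg, mul_neg,
        ← neg_mul, neg_sub]
    refine ⟨_, hfix _ hx.symm, _, hfix _ hy.symm, ?_⟩
    have hs0 : s ≠ 0 := fun h => hsF (h ▸ F.zero_mem)
    have := congrArg (fun w : E => (w : PadicAlgCl q)) (hnorm (z : E))
    rw [Units.coe_map]
    refine Eq.trans this ?_
    push_cast
    rw [h2, ← hs]
    field_simp
    ring
  · rintro ⟨x, hx, y, hy, hxy⟩
    set z : E := algebraMap F E ⟨x, hx⟩ + algebraMap F E ⟨y, hy⟩ * ⟨s, hsE⟩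
    have hz : algebraMap F E (Algebra.norm F z) = algebraMap F E (u : F) := by
      rw [hnorm]
      refine Subtype.ext ?_
      simp only [z, map_add, map_mul, AlgEquiv.commutes, hσs]
      push_cast
      show (x + y * s) * (x + y * -s) = ((u : F) : PadicAlgCl q)
      rw [hxy, ← hs]
      ring
    have hNu := (algebraMap F E).injective hz
    have hz0 : z ≠ 0 := fun h => by
      rw [h, Algebra.norm_zero] at hNu
      exact u.ne_zero hNu.symm
    exact ⟨Units.mk0 z hz0, Units.ext hNu⟩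

instance indexTwo_padic : IndexTwo ℚ_[q] (PadicAlgCl q) where
  exists_not_norm F _ b hb _ hns := by
    obtain ⟨R, hR, hmem⟩ := exists_normSubgroup F hb hns
    obtain ⟨u, hu⟩ : ∃ u, u ∉ R := by
      by_contra h
      rw [(Subgroup.eq_top_iff' R).2 fun u => not_not.1 fun hu => h ⟨u, hu⟩, Subgroup.index_top]
        at hR
      omega
    exact ⟨((u : F) : PadicAlgCl q), (u : F).2, fun h => u.ne_zero (Subtype.ext h),
      fun h => hu ((hmem u).2 h)⟩
  mul_norm F _ b hb hb0 a₁ ha₁ a₂ ha₂ h₁ h₂ hn₁ hn₂ := by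
    by_cases hns : IsSquareIn F b
    · exact absurd (isNormOf_of_isSquareIn hns hb0 ha₁) hn₁
    obtain ⟨R, hR, hmem⟩ := exists_normSubgroup F hb hns
    let u₁ : Fˣ := Units.mk0 ⟨a₁, ha₁⟩ fun h => h₁ (congrArg Subtype.val h)
    let u₂ : Fˣ := Units.mk0 ⟨a₂, ha₂⟩ fun h => h₂ (congrArg Subtype.val h)
    have h : u₁ * u₂ ∈ R := (Subgroup.mul_mem_iff_of_index_two hR).2
      (iff_of_false (fun h => hn₁ ((hmem u₁).1 h)) fun h => hn₂ ((hmem u₂).1 h))
    exact (hmem _).1 h

end Padic

section Real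

lemma mem_or_im_eq_zero (F : IntermediateField ℝ ℂ) :
    (∀ z : ℂ, z ∈ F) ∨ ∀ z ∈ F, z.im = 0 := by
  refine or_iff_not_imp_right.2 fun h z => ?_
  push Not at h
  obtain ⟨w, hw, hw0⟩ := h
  have hr : ∀ r : ℝ, (r : ℂ) ∈ F := fun r => F.algebraMap_mem r
  have hI : Complex.I ∈ F := by
    have he : Complex.I = (w - (w.re : ℂ)) / (w.im : ℂ) := by
      rw [eq_div_iff (by exact_mod_cast hw0)]
      refine Complex.ext ?_ ?_ <;> simp
    rw [he]
    exact div_mem (sub_mem hw (hr _)) (hr _)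
  rw [← Complex.re_add_im z]
  exact add_mem (hr _) (mul_mem (hr _) hI)

instance indexTwo_real : IndexTwo ℝ ℂ where
  exists_not_norm F _ b hb hb0 hns := by
    rcases mem_or_im_eq_zero F with h | h
    · obtain ⟨s, hs⟩ := IsAlgClosed.exists_pow_nat_eq b (n := 2) two_pos
      exact absurd ⟨s, h s, hs⟩ hns
    · refine ⟨-1, neg_mem (one_mem F), by norm_num, ?_⟩
      rintro ⟨x, hx, y, hy, hxy⟩
      have hbre : b.re < 0 := by
        by_contra hle
        push Not at hle
        refine hns ⟨(Real.sqrt b.re : ℂ), F.algebraMap_mem _, ?_⟩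
        rw [← Complex.ofReal_pow, Real.sq_sqrt hle]
        exact Complex.ext (by simp) (by simp [h b hb])
      have := congrArg Complex.re hxy
      simp [sq, h x hx, h y hy, h b hb] at this
      nlinarith [mul_self_nonneg x.re, mul_self_nonneg y.re, mul_nonneg (neg_pos.2 hbre).le
        (mul_self_nonneg y.re)]
  mul_norm F _ b hb hb0 a₁ ha₁ a₂ ha₂ h₁ h₂ hn₁ hn₂ := by
    rcases mem_or_im_eq_zero F with h | h
    · obtain ⟨s, hs⟩ := IsAlgClosed.exists_pow_nat_eq b (n := 2) two_pos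
      exact isNormOf_of_isSquareIn ⟨s, h s, hs⟩ hb0 (mul_mem ha₁ ha₂)
    · have hneg : ∀ a ∈ F, ¬ IsNormOf F b a → a.re < 0 := by
        intro a ha hn
        by_contra hle
        push Not at hle
        refine hn ⟨(Real.sqrt a.re : ℂ), F.algebraMap_mem _, 0, zero_mem F, ?_⟩
        rw [← Complex.ofReal_pow, Real.sq_sqrt hle]
        exact Complex.ext (by simp) (by simp [h a ha])
      have hpos : 0 ≤ a₁.re * a₂.re :=
        (mul_pos_of_neg_of_neg (hneg a₁ ha₁ hn₁) (hneg a₂ ha₂ hn₂)).le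
      refine ⟨(Real.sqrt (a₁.re * a₂.re) : ℂ), F.algebraMap_mem _, 0, zero_mem F, ?_⟩
      rw [← Complex.ofReal_pow, Real.sq_sqrt hpos]
      exact Complex.ext (by simp [h a₁ ha₁]) (by simp [h a₁ ha₁, h a₂ ha₂])

end Real

end Fermat.Agent.TwoAdic.Symbol

end
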