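import Fermat.Agent.TwoAdic.Symbol.Instances
import Fermat.Agent.TwoAdic.Selmer.Defs
import Fermat.Agent.ClassField.PadicRoots

/-!
# Norm symbols of unramified classes at a finite place

`UnrSqrt F b` says that a square root of `b` is fixed by inertia over `F`; `EvenVal F a` that the
absolute value of `a` is a square in the value group of `F`.
-/

set_option autoImplicit false

noncomputable section

namespace Fermat.Agent.TwoAdic.Symbol

open Fermat.Agent.ClassField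
open Fermat.Agent.ClassField.Idele

variable {v : Nat.Primes}

local notation "K" => PadicAlgCl (v : ℕ)

/-- A square root of `b` is fixed by inertia over `F`. -/
def UnrSqrt (F : IntermediateField ℚ_[(v : ℕ)] (PadicAlgCl (v : ℕ))) (b : PadicAlgCl (v : ℕ)) :
    Prop :=
  ∃ s : PadicAlgCl (v : ℕ), s ^ 2 = b ∧
    ∀ τ ∈ localInertia v, (∀ y ∈ F, τ y = y) → τ s = s

/-- The absolute value of `a` is a square of one of `F`. -/
def EvenVal (F : IntermediateField ℚ_[(v : ℕ)] (PadicAlgCl (v : ℕ))) (a : PadicAlgCl (v : ℕ)) :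
    Prop :=
  ∃ c ∈ F, ‖a‖ = ‖c‖ ^ 2

lemma norm_algEquiv (τ : LocalGal v) (x : K) : ‖τ x‖ = ‖x‖ :=
  (spectralNorm_eq_of_equiv τ x).symm

variable {F : IntermediateField ℚ_[(v : ℕ)] (PadicAlgCl (v : ℕ))} {a a' b b' : PadicAlgCl (v : ℕ)}

lemma EvenVal.mul (h : EvenVal F a) (h' : EvenVal F a') : EvenVal F (a * a') := by
  obtain ⟨c, hc, hn⟩ := h
  obtain ⟨c', hc', hn'⟩ := h'
  exact ⟨c * c', mul_mem hc hc', by rw [norm_mul, norm_mul, hn, hn', mul_pow]⟩

lemma EvenVal.inv (h : EvenVal F a) : EvenVal F a⁻¹ := by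
  obtain ⟨c, hc, hn⟩ := h
  exact ⟨c⁻¹, inv_mem hc, by rw [norm_inv, norm_inv, hn, inv_pow]⟩

lemma evenVal_sq {c : K} (hc : c ∈ F) : EvenVal F (c ^ 2) := ⟨c, hc, norm_pow c 2⟩

lemma evenVal_of_norm_one (h : ‖a‖ = 1) : EvenVal F a := ⟨1, one_mem F, by simp [h]⟩

lemma UnrSqrt.mul (h : UnrSqrt F b) (h' : UnrSqrt F b') : UnrSqrt F (b * b') := by
  obtain ⟨s, hs, hτ⟩ := h
  obtain ⟨s', hs', hτ'⟩ := h'
  exact ⟨s * s', by rw [mul_pow, hs, hs'], fun τ h1 h2 => by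
    rw [map_mul, hτ τ h1 h2, hτ' τ h1 h2]⟩

lemma unrSqrt_of_isSquareIn (h : IsSquareIn F b) : UnrSqrt F b := by
  obtain ⟨s, hs, rfl⟩ := h
  exact ⟨s, rfl, fun τ _ h2 => h2 s hs⟩

lemma UnrSqrt.mono {F' : IntermediateField ℚ_[(v : ℕ)] (PadicAlgCl (v : ℕ))} (hle : F ≤ F')
    (h : UnrSqrt F b) : UnrSqrt F' b := by
  obtain ⟨s, hs, hτ⟩ := h
  exact ⟨s, hs, fun τ h1 h2 => hτ τ h1 fun y hy => h2 y (hle hy)⟩

variable [FiniteDimensional ℚ_[(v : ℕ)] F]

lemma exists_not_evenVal (F : IntermediateField ℚ_[(v : ℕ)] (PadicAlgCl (v : ℕ)))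
    [FiniteDimensional ℚ_[(v : ℕ)] F] : ∃ a ∈ F, a ≠ 0 ∧ ¬ EvenVal F a := by
  refine ⟨(PadicFields.uniformizer F : F), (PadicFields.uniformizer F).2,
    fun h => PadicFields.uniformizer_ne_zero F (Subtype.ext h), ?_⟩
  rintro ⟨c, hc, hn⟩
  have hc0 : (⟨c, hc⟩ : F) ≠ 0 := fun h => by
    rw [show c = 0 from congrArg Subtype.val h, norm_zero, ← PadicFields.norm_def] at hn
    simp [PadicFields.uniformizer_ne_zero F] at hn
  obtain ⟨i, hi⟩ := PadicFields.exists_norm_eq_zpow F hc0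
  rw [PadicFields.norm_def] at hi
  simp only at hi
  rw [← PadicFields.norm_def, hi, ← zpow_natCast, ← zpow_mul] at hn
  have h : (1 : ℤ) = i * (2 : ℕ) := PadicFields.zpow_norm_uniformizer_inj F (by rwa [zpow_one])
  omega

lemma not_evenVal_mul (ha : a ∈ F) (ha' : a' ∈ F) (ha0 : a ≠ 0) (ha'0 : a' ≠ 0)
    (h : ¬ EvenVal F a) (h' : ¬ EvenVal F a') : EvenVal F (a * a') := by
  obtain ⟨i, hi⟩ := PadicFields.exists_norm_eq_zpow F (x := ⟨a, ha⟩)
    fun h => ha0 (congrArg Subtype.val h)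
  obtain ⟨j, hj⟩ := PadicFields.exists_norm_eq_zpow F (x := ⟨a', ha'⟩)
    fun h => ha'0 (congrArg Subtype.val h)
  rw [PadicFields.norm_def] at hi hj
  simp only at hi hj
  have hodd : ∀ {x : K} {n : ℤ}, ‖x‖ = ‖PadicFields.uniformizer F‖ ^ n → ¬ EvenVal F x →
      Odd n := by
    intro x n hx hne
    by_contra hn
    obtain ⟨m, hm⟩ := Int.not_odd_iff_even.1 hn
    refine hne ⟨((PadicFields.uniformizer F) ^ m : F), ((PadicFields.uniformizer F) ^ m : F).2, ?_⟩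
    rw [← PadicFields.norm_def, norm_zpow, hx, hm, zpow_add₀ (PadicFields.norm_uniformizer_pos F).ne',
      sq]
  obtain ⟨l, hl⟩ := (hodd hi h).add_odd (hodd hj h')
  refine ⟨((PadicFields.uniformizer F) ^ l : F), ((PadicFields.uniformizer F) ^ l : F).2, ?_⟩
  rw [← PadicFields.norm_def, norm_zpow, norm_mul, hi, hj,
    ← zpow_add₀ (PadicFields.norm_uniformizer_pos F).ne', hl,
    zpow_add₀ (PadicFields.norm_uniformizer_pos F).ne', sq]

/-- The absolute values of `F(√b)` are those of `F` when `√b` is unramified. -/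
lemma UnrSqrt.exists_norm_eq (hu : UnrSqrt F b) {x y : K} (hx : x ∈ F) (hy : y ∈ F) :
    ∃ s : K, s ^ 2 = b ∧
      ∀ z, z = x + y * s → z ≠ 0 → ∃ c ∈ F, ‖z‖ = ‖c‖ := by
  obtain ⟨s, hs, hfix⟩ := hu
  refine ⟨s, hs, fun z hz hz0 => ?_⟩
  have hint : IsIntegral ℚ_[(v : ℕ)] s := Algebra.IsIntegral.isIntegral s
  have := IntermediateField.adjoin.finiteDimensional hint
  set E := F ⊔ IntermediateField.adjoin ℚ_[(v : ℕ)] {s}
  have hFE : F ≤ E := le_sup_left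
  have hsE : s ∈ E :=
    (le_sup_right : _ ≤ E) (IntermediateField.mem_adjoin_simple_self ℚ_[(v : ℕ)] s)
  have he : PadicFields.ramIdx E = PadicFields.ramIdx F := by
    refine PadicFields.ramIdx_eq_of_fix F E hFE fun τ hτ => ?_
    obtain ⟨hτF, hτR⟩ := Subgroup.mem_inf.1 hτ
    rw [IntermediateField.fixingSubgroup_sup, Subgroup.mem_inf]
    refine ⟨hτF, ?_⟩
    have hs' : τ s = s := hfix τ (fun w hw => PadicFields.norm_apply_sub_lt_of_fix hτR hw)
      ((IntermediateField.mem_fixingSubgroup_iff F τ).1 hτF)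
    rw [IntermediateField.mem_fixingSubgroup_iff]
    intro w hw
    refine (IntermediateField.mem_fixedField_iff _ _).1
      (IntermediateField.adjoin_simple_le_iff.2 ?_ hw : w ∈ IntermediateField.fixedField
        (Subgroup.zpowers τ)) τ (Subgroup.mem_zpowers τ)
    rw [IntermediateField.mem_fixedField_iff]
    intro g hg
    exact (Subgroup.zpowers_le.2 (show τ ∈ MulAction.stabilizer (LocalGal v) s from hs')) hg
  have hzE : z ∈ E := hz ▸ add_mem (hFE hx) (mul_mem (hFE hy) hsE)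
  obtain ⟨i, hi⟩ := PadicFields.exists_norm_eq_zpow E (x := ⟨z, hzE⟩)
    fun h => hz0 (congrArg Subtype.val h)
  rw [PadicFields.norm_def] at hi
  simp only at hi
  have hunif : ‖PadicFields.uniformizer E‖ = ‖PadicFields.uniformizer F‖ := by
    have h1 : ‖PadicFields.uniformizer E‖ ^ PadicFields.ramIdx E =
        ‖PadicFields.uniformizer F‖ ^ PadicFields.ramIdx F := by
      rw [← PadicFields.norm_q_eq, ← PadicFields.norm_q_eq, PadicFields.norm_q, PadicFields.norm_q]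
    rw [he] at h1
    exact (pow_left_inj₀ (norm_nonneg _) (norm_nonneg _) (PadicFields.ramIdx_pos F).ne').1 h1
  exact ⟨((PadicFields.uniformizer F) ^ i : F), ((PadicFields.uniformizer F) ^ i : F).2, by
    rw [hi, hunif, ← PadicFields.norm_def, norm_zpow]⟩

lemma evenVal_of_unrSqrt (hu : UnrSqrt F b) (hb : b ∈ F) (hb0 : b ≠ 0) : EvenVal F b := by
  obtain ⟨s, hs, h⟩ := hu.exists_norm_eq (zero_mem F) (one_mem F)
  have hs0 : s ≠ 0 := fun h0 => hb0 (by rw [← hs, h0]; ring)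
  obtain ⟨c, hc, hn⟩ := h s (by ring) hs0
  exact ⟨c, hc, by rw [← hs, norm_pow, hn]⟩

lemma evenVal_of_isNormOf (hu : UnrSqrt F b) (hb : b ∈ F) (hns : ¬ IsSquareIn F b) (ha0 : a ≠ 0)
    (h : IsNormOf F b a) : EvenVal F a := by
  obtain ⟨x, hx, y, hy, rfl⟩ := h
  obtain ⟨s, hs, hz⟩ := hu.exists_norm_eq hx hy
  have hsF : s ∉ F := fun h => hns ⟨s, h, hs⟩
  have hfac : x ^ 2 - b * y ^ 2 = (x + y * s) * (x - y * s) := by rw [← hs]; ring
  have hz0 : x + y * s ≠ 0 := fun h => ha0 (by rw [hfac, h, zero_mul])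
  obtain ⟨τ, hτF, hτs⟩ : ∃ τ : LocalGal v, (∀ w ∈ F, τ w = w) ∧ τ s ≠ s := by
    by_contra hcon
    push Not at hcon
    have : IsGalois ℚ_[(v : ℕ)] K := IsAlgClosure.isGalois _ _
    refine hsF ?_
    rw [← InfiniteGalois.fixedField_fixingSubgroup F, IntermediateField.mem_fixedField_iff]
    exact fun τ hτ => hcon τ ((IntermediateField.mem_fixingSubgroup_iff F τ).1 hτ)
  have hτs' : τ s = -s := by
    have h : (τ s) ^ 2 = s ^ 2 := by rw [← map_pow, hs, hτF b hb]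
    exact (sq_eq_sq_iff_eq_or_eq_neg.1 h).resolve_left hτs
  obtain ⟨c, hc, hn⟩ := hz _ rfl hz0
  refine ⟨c, hc, ?_⟩
  have hconj : τ (x + y * s) = x - y * s := by
    rw [map_add, map_mul, hτF x hx, hτF y hy, hτs', mul_neg, sub_eq_add_neg]
  rw [hfac, norm_mul, ← hconj, norm_algEquiv, hn, sq]

/-- A class of even valuation and an unramified class pair trivially. -/
lemma hs_eq_one_of_evenVal (ha : a ∈ F) (hb : b ∈ F) (ha0 : a ≠ 0) (hb0 : b ≠ 0)
    (hu : UnrSqrt F b) (he : EvenVal F a) : hs F a b = 1 := by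
  by_cases hns : IsSquareIn F b
  · exact hs_of_isSquareIn_right hns hb0 ha
  refine hs_eq_one_iff.2 ?_
  by_contra hn
  obtain ⟨π, hπ, hπ0, hπe⟩ := exists_not_evenVal F
  have hπn : ¬ IsNormOf F b π := fun h => hπe (evenVal_of_isNormOf hu hb hns hπ0 h)
  have h := evenVal_of_isNormOf hu hb hns (mul_ne_zero ha0 hπ0)
    (IndexTwo.mul_norm F inferInstance b hb hb0 a ha π hπ ha0 hπ0 hn hπn)
  have h2 := he.inv.mul h
  rw [← mul_assoc, inv_mul_cancel₀ ha0, one_mul] at h2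
  exact hπe h2

lemma hs_eq_one_of_unrSqrt (ha : a ∈ F) (hb : b ∈ F) (ha0 : a ≠ 0) (hb0 : b ≠ 0)
    (hua : UnrSqrt F a) (hub : UnrSqrt F b) : hs F a b = 1 :=
  hs_eq_one_of_evenVal ha hb ha0 hb0 hub (evenVal_of_unrSqrt hua ha ha0)

lemma hs_eq_neg_one_of_not_evenVal (hb : b ∈ F) (ha0 : a ≠ 0) (hns : ¬ IsSquareIn F b)
    (hu : UnrSqrt F b) (he : ¬ EvenVal F a) : hs F a b = -1 :=
  hs_eq_neg_one_iff.2 fun h => he (evenVal_of_isNormOf hu hb hns ha0 h)

omit [FiniteDimensional ℚ_[(v : ℕ)] F] in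
lemma norm_natCast_eq_one {n : ℕ} (h : ¬ (v : ℕ) ∣ n) : ‖(n : K)‖ = 1 := by
  rw [← map_natCast (algebraMap ℚ_[(v : ℕ)] (PadicAlgCl (v : ℕ))), norm_algebraMap',
    Padic.norm_natCast_eq_one_iff]
  exact v.2.coprime_iff_not_dvd.2 h

omit [FiniteDimensional ℚ_[(v : ℕ)] F] in
lemma unrSqrt_of_evenVal (hv : (v : ℕ) ≠ 2) (hb : b ∈ F) (hb0 : b ≠ 0) (he : EvenVal F b) :
    UnrSqrt F b := by
  obtain ⟨c, hc, hn⟩ := he
  obtain ⟨s, hs⟩ := IsAlgClosed.exists_pow_nat_eq b (n := 2) two_pos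
  refine ⟨s, hs, fun τ hτ hF => ?_⟩
  have hc0 : c ≠ 0 := fun h => hb0 (by simpa [h] using hn)
  have hsn : ‖s‖ = ‖c‖ := by
    rw [← hs, norm_pow] at hn
    exact (pow_left_inj₀ (norm_nonneg _) (norm_nonneg _) two_ne_zero).1 hn
  have ht : ‖s / c‖ = 1 := by rw [norm_div, hsn, div_self (norm_ne_zero_iff.2 hc0)]
  have hlt := hτ (s / c) ht.le
  rw [map_div₀, hF c hc] at hlt
  have h2 : (τ s) ^ 2 = s ^ 2 := by rw [← map_pow, hs, hF b hb]
  refine (sq_eq_sq_iff_eq_or_eq_neg.1 h2).resolve_right fun h => ?_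
  rw [h, show -s / c - s / c = -(((2 : ℕ) : PadicAlgCl (v : ℕ)) * (s / c)) by push_cast; ring,
    norm_neg, norm_mul, ht, mul_one, norm_natCast_eq_one fun h => hv
      ((Nat.prime_dvd_prime_iff_eq v.2 Nat.prime_two).1 h)] at hlt
  exact lt_irrefl _ hlt

end Fermat.Agent.TwoAdic.Symbol

end
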