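import Fermat.Agent.TwoAdic.Symbol.Basic
import Fermat.Agent.TwoAdic.Selmer.Defs
import Mathlib.FieldTheory.Galois.Infinite

/-!
# The local pairing of equivariant families of a cubic, and the projection formula

At a place `(k, K, emb)` of `ℚ` the roots of the cubic fall into orbits of the local Galois group;
the local pairing of two equivariant families is the product over the orbits of the norm symbols
over the field of the smallest root of the orbit.
-/

set_option autoImplicit false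

noncomputable section

open scoped IntermediateField

namespace Fermat.Agent.TwoAdic.Symbol

open Fermat.Agent.TwoAdic.Selmer

local notation "ℚ̄" => AlgebraicClosure ℚ
local notation "Γℚ" => (AlgebraicClosure ℚ ≃ₐ[ℚ] AlgebraicClosure ℚ)

/-- A place: an embedding of `ℚ̄` into an algebraic closure of a local field `k`, with the
restriction map on Galois groups. -/
structure Place (k K : Type*) [Field k] [Field K] [Algebra k K] where
  emb : ℚ̄ →+* K
  glob : (K ≃ₐ[k] K) →* Γℚ
  emb_glob : ∀ τ x, emb (glob τ x) = τ (emb x)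

variable {k K : Type*} [Field k] [Field K] [Algebra k K] (T : CubicRoots) (P : Place k K)

/-- The permutation of the roots given by a local Galois element. -/
def lperm : (K ≃ₐ[k] K) →* Equiv.Perm (Fin 3) := T.perm.comp P.glob

/-- The local roots. -/
def theta (i : Fin 3) : K := P.emb (T.root i)

/-- The field of a local root. -/
def fld (i : Fin 3) : IntermediateField k K := k⟮theta T P i⟯

open Classical in
/-- The orbit of a root. -/
def orbit (i : Fin 3) : Finset (Fin 3) :=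
  Finset.univ.filter fun j => ∃ τ : K ≃ₐ[k] K, lperm T P τ i = j

open Classical in
/-- The smallest roots of the orbits. -/
def reps : Finset (Fin 3) :=
  Finset.univ.filter fun i => ∀ τ : K ≃ₐ[k] K, i ≤ lperm T P τ i

/-- A family indexed by the roots, compatible with the local Galois action. -/
def IsLocalFam (a : Fin 3 → K) : Prop := ∀ τ i, τ (a i) = a (lperm T P τ i)

/-- The local pairing of two families. -/
def pairing (a b : Fin 3 → K) : ℤˣ := ∏ i ∈ reps T P, hs (fld T P i) (a i) (b i)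

variable {T P}

lemma theta_injective : Function.Injective (theta T P) :=
  P.emb.injective.comp T.root_injective

lemma apply_theta (τ : K ≃ₐ[k] K) (i : Fin 3) : τ (theta T P i) = theta T P (lperm T P τ i) := by
  rw [theta, theta, ← P.emb_glob, T.apply_root]; rfl

lemma lperm_mul_apply (σ τ : K ≃ₐ[k] K) (i : Fin 3) :
    lperm T P (σ * τ) i = lperm T P σ (lperm T P τ i) := by
  rw [map_mul, Equiv.Perm.mul_apply]

lemma lperm_inv_apply (σ : K ≃ₐ[k] K) (i : Fin 3) :
    lperm T P σ⁻¹ (lperm T P σ i) = i := by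
  rw [← lperm_mul_apply, inv_mul_cancel, map_one, Equiv.Perm.one_apply]

lemma apply_theta_eq_iff {τ : K ≃ₐ[k] K} {i : Fin 3} :
    τ (theta T P i) = theta T P i ↔ lperm T P τ i = i := by
  rw [apply_theta]; exact theta_injective.eq_iff

lemma theta_mem_fld (i : Fin 3) : theta T P i ∈ fld T P i :=
  IntermediateField.mem_adjoin_simple_self k _

lemma fld_le_fixedField {i : Fin 3} :
    fld T P i ≤ IntermediateField.fixedField (MulAction.stabilizer (K ≃ₐ[k] K) (theta T P i)) := by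
  refine IntermediateField.adjoin_simple_le_iff.2 ?_
  rw [IntermediateField.mem_fixedField_iff]
  exact fun τ hτ => hτ

lemma apply_eq_self_of_mem_fld {i : Fin 3} {x : K} (hx : x ∈ fld T P i) {τ : K ≃ₐ[k] K}
    (hτ : lperm T P τ i = i) : τ x = x :=
  (IntermediateField.mem_fixedField_iff _ _).1 (fld_le_fixedField hx) τ (apply_theta_eq_iff.2 hτ)

lemma apply_eq_apply_of_mem_fld {i : Fin 3} {x : K} (hx : x ∈ fld T P i) {σ τ : K ≃ₐ[k] K}
    (h : lperm T P σ i = lperm T P τ i) : σ x = τ x := by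
  have h1 : lperm T P (τ⁻¹ * σ) i = i := by rw [lperm_mul_apply, h, lperm_inv_apply]
  have h2 := congrArg τ (apply_eq_self_of_mem_fld hx h1)
  rwa [← AlgEquiv.mul_apply, ← mul_assoc, mul_inv_cancel, one_mul] at h2

variable [IsGalois k K]

lemma mem_of_fixed {F : IntermediateField k K} {x : K}
    (h : ∀ τ : K ≃ₐ[k] K, (∀ y ∈ F, τ y = y) → τ x = x) : x ∈ F := by
  rw [← InfiniteGalois.fixedField_fixingSubgroup F, IntermediateField.mem_fixedField_iff]
  exact fun τ hτ => h τ ((IntermediateField.mem_fixingSubgroup_iff F τ).1 hτ)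

lemma mem_fld_of_fixed {i : Fin 3} {x : K}
    (h : ∀ τ : K ≃ₐ[k] K, lperm T P τ i = i → τ x = x) : x ∈ fld T P i :=
  mem_of_fixed fun τ hτ => h τ (apply_theta_eq_iff.1 (hτ _ (theta_mem_fld i)))

lemma mem_bot_of_fixed {x : K} (h : ∀ τ : K ≃ₐ[k] K, τ x = x) :
    x ∈ (⊥ : IntermediateField k K) :=
  mem_of_fixed fun τ _ => h τ

omit [IsGalois k K] in
lemma apply_of_mem_bot {x : K} (hx : x ∈ (⊥ : IntermediateField k K)) (τ : K ≃ₐ[k] K) :
    τ x = x := by
  obtain ⟨c, rfl⟩ := IntermediateField.mem_bot.1 hx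
  exact τ.commutes c

instance finiteDimensional_fld (i : Fin 3) : FiniteDimensional k (fld T P i) :=
  IntermediateField.adjoin.finiteDimensional (Algebra.IsIntegral.isIntegral _)

lemma IsLocalFam.mem_fld {a : Fin 3 → K} (ha : IsLocalFam T P a) (i : Fin 3) :
    a i ∈ fld T P i :=
  mem_fld_of_fixed fun τ hτ => by rw [ha, hτ]

omit [IsGalois k K]

lemma IsLocalFam.mul {a b : Fin 3 → K} (ha : IsLocalFam T P a) (hb : IsLocalFam T P b) :
    IsLocalFam T P (a * b) := fun τ i => by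
  rw [Pi.mul_apply, map_mul, ha, hb, Pi.mul_apply]

lemma isLocalFam_const {r : K} (hr : r ∈ (⊥ : IntermediateField k K)) :
    IsLocalFam T P fun _ => r := fun τ _ => apply_of_mem_bot hr τ

lemma mem_orbit {i j : Fin 3} : j ∈ orbit T P i ↔ ∃ τ : K ≃ₐ[k] K, lperm T P τ i = j := by
  simp [orbit]

lemma self_mem_orbit (i : Fin 3) : i ∈ orbit T P i :=
  mem_orbit.2 ⟨1, by rw [map_one, Equiv.Perm.one_apply]⟩

lemma lperm_mem_orbit {i j : Fin 3} (hj : j ∈ orbit T P i) (σ : K ≃ₐ[k] K) :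
    lperm T P σ j ∈ orbit T P i := by
  obtain ⟨τ, rfl⟩ := mem_orbit.1 hj
  exact mem_orbit.2 ⟨σ * τ, lperm_mul_apply σ τ i⟩

lemma prod_orbit_lperm {M : Type*} [CommMonoid M] (i : Fin 3) (f : Fin 3 → M)
    (σ : K ≃ₐ[k] K) : ∏ j ∈ orbit T P i, f (lperm T P σ j) = ∏ j ∈ orbit T P i, f j := by
  refine Finset.prod_equiv (lperm T P σ) (fun j => ⟨fun h => lperm_mem_orbit h σ, fun h => ?_⟩)
    fun j _ => rfl
  have := lperm_mem_orbit h σ⁻¹
  rwa [lperm_inv_apply] at this

lemma orbit_eq_of_mem {i j : Fin 3} (hj : j ∈ orbit T P i) : orbit T P j = orbit T P i := by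
  obtain ⟨τ, rfl⟩ := mem_orbit.1 hj
  refine Finset.ext fun l => ⟨fun h => ?_, fun h => ?_⟩
  · obtain ⟨σ, rfl⟩ := mem_orbit.1 h
    exact mem_orbit.2 ⟨σ * τ, lperm_mul_apply σ τ i⟩
  · obtain ⟨σ, rfl⟩ := mem_orbit.1 h
    exact mem_orbit.2 ⟨σ * τ⁻¹, by rw [lperm_mul_apply, lperm_inv_apply]⟩

lemma prod_univ_eq {M : Type*} [CommMonoid M] (f : Fin 3 → M) :
    ∏ j, f j = ∏ i ∈ reps T P, ∏ j ∈ orbit T P i, f j := by
  classical
  have hrep : ∀ i, i ∈ reps T P ↔ ∀ τ : K ≃ₐ[k] K, i ≤ lperm T P τ i := fun i => by simp [reps]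
  have hu : Finset.univ = (reps T P).biUnion (orbit T P) := by
    refine (Finset.eq_univ_of_forall fun j => ?_).symm
    set i := (orbit T P j).min' ⟨j, self_mem_orbit j⟩
    have hi : i ∈ orbit T P j := Finset.min'_mem _ _
    refine Finset.mem_biUnion.2 ⟨i, (hrep i).2 fun τ => Finset.min'_le _ _
      (lperm_mem_orbit hi τ), ?_⟩
    rw [orbit_eq_of_mem hi]
    exact self_mem_orbit j
  have hd : ((reps T P : Finset (Fin 3)) : Set (Fin 3)).PairwiseDisjoint (orbit T P) := by
    intro i hi i' hi' hne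
    refine Finset.disjoint_left.2 fun l hl hl' => hne ?_
    have he : orbit T P i = orbit T P i' := (orbit_eq_of_mem hl).symm.trans (orbit_eq_of_mem hl')
    obtain ⟨τ, hτ⟩ := mem_orbit.1 (he ▸ self_mem_orbit i' : i' ∈ orbit T P i)
    obtain ⟨σ, hσ⟩ := mem_orbit.1 (he ▸ self_mem_orbit i : i ∈ orbit T P i')
    exact le_antisymm (hτ ▸ (hrep i).1 hi τ) (hσ ▸ (hrep i').1 hi' σ)
  rw [hu, Finset.prod_biUnion hd]

open Classical in
/-- The conjugates of an element of the field of the root `i`, indexed by the orbit. -/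
def transport (T : CubicRoots) (P : Place k K) (i : Fin 3) (x : K) (j : Fin 3) : K :=
  if h : ∃ τ : K ≃ₐ[k] K, lperm T P τ i = j then h.choose x else 0

/-- The norm of an element of the field of the root `i`. -/
def nrm (T : CubicRoots) (P : Place k K) (i : Fin 3) (x : K) : K :=
  ∏ j ∈ orbit T P i, transport T P i x j

lemma transport_lperm {i : Fin 3} {x : K} (hx : x ∈ fld T P i) (τ : K ≃ₐ[k] K) :
    transport T P i x (lperm T P τ i) = τ x := by
  have h : ∃ σ : K ≃ₐ[k] K, lperm T P σ i = lperm T P τ i := ⟨τ, rfl⟩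
  rw [transport, dif_pos h]
  exact apply_eq_apply_of_mem_fld hx h.choose_spec

lemma transport_self {i : Fin 3} {x : K} (hx : x ∈ fld T P i) : transport T P i x i = x := by
  have h := transport_lperm hx 1
  rwa [map_one, Equiv.Perm.one_apply, AlgEquiv.one_apply] at h

lemma apply_transport {i j : Fin 3} {x : K} (hx : x ∈ fld T P i) (hj : j ∈ orbit T P i)
    (σ : K ≃ₐ[k] K) : σ (transport T P i x j) = transport T P i x (lperm T P σ j) := by
  obtain ⟨τ, rfl⟩ := mem_orbit.1 hj
  rw [transport_lperm hx, ← lperm_mul_apply, transport_lperm hx, AlgEquiv.mul_apply]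

lemma IsLocalFam.nrm_eq {a : Fin 3 → K} (ha : IsLocalFam T P a) [IsGalois k K] (i : Fin 3) :
    nrm T P i (a i) = ∏ j ∈ orbit T P i, a j := Finset.prod_congr rfl fun j hj => by
  obtain ⟨τ, rfl⟩ := mem_orbit.1 hj
  rw [transport_lperm (ha.mem_fld i), ha]

lemma nrm_mul {i : Fin 3} {x y : K} (hx : x ∈ fld T P i) (hy : y ∈ fld T P i) :
    nrm T P i (x * y) = nrm T P i x * nrm T P i y := by
  rw [nrm, nrm, nrm, ← Finset.prod_mul_distrib]
  refine Finset.prod_congr rfl fun j hj => ?_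
  obtain ⟨τ, rfl⟩ := mem_orbit.1 hj
  rw [transport_lperm (mul_mem hx hy), transport_lperm hx, transport_lperm hy, map_mul]

lemma nrm_ne_zero {i : Fin 3} {x : K} (hx : x ∈ fld T P i) (hx0 : x ≠ 0) : nrm T P i x ≠ 0 := by
  refine Finset.prod_ne_zero_iff.2 fun j hj => ?_
  obtain ⟨τ, rfl⟩ := mem_orbit.1 hj
  rw [transport_lperm hx]
  exact (map_ne_zero _).2 hx0

lemma nrm_of_mem_bot {i : Fin 3} {c : K} (hc : c ∈ (⊥ : IntermediateField k K)) :
    nrm T P i c = c ^ (orbit T P i).card := by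
  have hci : c ∈ fld T P i := (bot_le : ⊥ ≤ fld T P i) hc
  rw [nrm, ← Finset.prod_const]
  refine Finset.prod_congr rfl fun j hj => ?_
  obtain ⟨τ, rfl⟩ := mem_orbit.1 hj
  rw [transport_lperm hci, apply_of_mem_bot hc]

variable [IsGalois k K]

lemma nrm_mem_bot {i : Fin 3} {x : K} (hx : x ∈ fld T P i) :
    nrm T P i x ∈ (⊥ : IntermediateField k K) :=
  mem_bot_of_fixed fun σ => by
    rw [nrm, map_prod, Finset.prod_congr rfl fun j hj => apply_transport hx hj σ,
      prod_orbit_lperm i (transport T P i x) σ]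

section Projection

variable [CharZero K] [IsAlgClosed K] {i : Fin 3} {r : K}

lemma isNormOf_nrm (hr : r ∈ (⊥ : IntermediateField k K)) (hr0 : r ≠ 0) {c : K}
    (h : IsNormOf (fld T P i) r c) : IsNormOf (⊥ : IntermediateField k K) r (nrm T P i c) := by
  obtain ⟨x, hx, y, hy, rfl⟩ := h
  obtain ⟨s, hs⟩ := IsAlgClosed.exists_pow_nat_eq r (n := 2) two_pos
  have hs0 : s ≠ 0 := fun h => hr0 (by rw [← hs, h]; ring)
  have hri : r ∈ fld T P i := (bot_le : ⊥ ≤ fld T P i) hr
  set X := transport T P i x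
  set Y := transport T P i y
  have hN : nrm T P i (x ^ 2 - r * y ^ 2) =
      (∏ j ∈ orbit T P i, (X j + s * Y j)) * ∏ j ∈ orbit T P i, (X j - s * Y j) := by
    rw [nrm, ← Finset.prod_mul_distrib]
    refine Finset.prod_congr rfl fun j hj => ?_
    obtain ⟨τ, rfl⟩ := mem_orbit.1 hj
    simp only [X, Y]
    rw [transport_lperm (sub_mem (pow_mem hx 2) (mul_mem hri (pow_mem hy 2))), transport_lperm hx,
      transport_lperm hy, map_sub, map_mul, map_pow, map_pow, apply_of_mem_bot hr, ← hs]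
    ring
  set A := ∏ j ∈ orbit T P i, (X j + s * Y j)
  set B := ∏ j ∈ orbit T P i, (X j - s * Y j)
  have key : ∀ σ : K ≃ₐ[k] K,
      (σ s = s ∧ σ A = A ∧ σ B = B) ∨ (σ s = -s ∧ σ A = B ∧ σ B = A) := by
    intro σ
    have hσs : (σ s) ^ 2 = s ^ 2 := by rw [← map_pow, hs, apply_of_mem_bot hr]
    have hA : σ A = ∏ j ∈ orbit T P i, (X j + σ s * Y j) := by
      rw [map_prod, ← prod_orbit_lperm i (fun j => X j + σ s * Y j) σ]
      refine Finset.prod_congr rfl fun j hj => ?_
      rw [map_add, map_mul, apply_transport hx hj, apply_transport hy hj]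
    have hB : σ B = ∏ j ∈ orbit T P i, (X j - σ s * Y j) := by
      rw [map_prod, ← prod_orbit_lperm i (fun j => X j - σ s * Y j) σ]
      refine Finset.prod_congr rfl fun j hj => ?_
      rw [map_sub, map_mul, apply_transport hx hj, apply_transport hy hj]
    rcases sq_eq_sq_iff_eq_or_eq_neg.1 hσs with h | h
    · exact Or.inl ⟨h, by rw [hA, h], by rw [hB, h]⟩
    · refine Or.inr ⟨h, ?_, ?_⟩
      · rw [hA, h]; exact Finset.prod_congr rfl fun j _ => by ring
      · rw [hB, h]; exact Finset.prod_congr rfl fun j _ => by ring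
  refine ⟨(A + B) / 2, mem_bot_of_fixed fun σ => ?_, (A - B) / (2 * s),
    mem_bot_of_fixed fun σ => ?_, ?_⟩
  · rcases key σ with ⟨_, h1, h2⟩ | ⟨_, h1, h2⟩ <;>
      rw [map_div₀, map_add, h1, h2, map_ofNat]
    rw [add_comm]
  · rcases key σ with ⟨h0, h1, h2⟩ | ⟨h0, h1, h2⟩ <;>
      rw [map_div₀, map_sub, map_mul, h1, h2, h0, map_ofNat]
    rw [mul_neg, div_neg, ← neg_div, neg_sub]
  · rw [hN, ← hs]
    field_simp
    ring

variable [IndexTwo k K]

omit [IsGalois k K] [IsAlgClosed K] in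
lemma isSquareIn_bot_of_le {d : K} (hd : d ∈ (⊥ : IntermediateField k K)) (hd0 : d ≠ 0)
    (hr : r ∈ (⊥ : IntermediateField k K))
    (hr0 : r ≠ 0) (hrn : ¬ IsSquareIn (⊥ : IntermediateField k K) r)
    (hle : ∀ a, IsNormOf (⊥ : IntermediateField k K) d a → a ≠ 0 → IsNormOf (⊥ : IntermediateField k K) r a) :
    IsSquareIn (⊥ : IntermediateField k K) (r * d) := by
  obtain ⟨b, hb, hb0, hbr⟩ := exists_hs_eq_neg_one hr hr0 hrn
  have hbd : hs (⊥ : IntermediateField k K) b d = -1 :=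
    hs_eq_neg_one_iff.2 fun h => hs_eq_neg_one_iff.1 hbr (hle b h hb0)
  refine isSquareIn_of_forall_hs (mul_mem hr hd) (mul_ne_zero hr0 hd0) fun a ha ha0 => ?_
  rw [hs_mul_right ha hr hd ha0 hr0 hd0]
  rcases Int.units_eq_one_or (hs (⊥ : IntermediateField k K) a d) with h | h
  · rw [h, mul_one]
    exact hs_eq_one_iff.2 (hle a (hs_eq_one_iff.1 h) ha0)
  · have h1 : hs (⊥ : IntermediateField k K) (a * b) d = 1 := by
      rw [hs_mul_left ha hb hd ha0 hb0 hd0, h, hbd]; decide
    have h2 := hs_eq_one_iff.2 (hle _ (hs_eq_one_iff.1 h1) (mul_ne_zero ha0 hb0))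
    rw [hs_mul_left ha hb hr ha0 hb0 hr0, hbr, mul_neg_one, neg_eq_iff_eq_neg] at h2
    rw [h, h2]; decide

lemma exists_not_isNormOf_nrm (hr : r ∈ (⊥ : IntermediateField k K)) (hr0 : r ≠ 0)
    (hn : ¬ IsSquareIn (fld T P i) r) :
    ∃ c ∈ fld T P i, c ≠ 0 ∧ ¬ IsNormOf (⊥ : IntermediateField k K) r (nrm T P i c) := by
  have hn' : ¬ IsSquareIn (⊥ : IntermediateField k K) r := fun ⟨s, hs, hs2⟩ =>
    hn ⟨s, (bot_le : ⊥ ≤ fld T P i) hs, hs2⟩
  obtain ⟨c, hc, hc0, hcn⟩ := exists_hs_eq_neg_one hr hr0 hn'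
  rw [hs_eq_neg_one_iff] at hcn
  by_cases hodd : Odd (orbit T P i).card
  · obtain ⟨m, hm⟩ := hodd
    refine ⟨c, (bot_le : ⊥ ≤ fld T P i) hc, hc0, fun h => hcn ?_⟩
    rw [nrm_of_mem_bot hc, hm] at h
    have := h.mul hr (isNormOf_sq (inv_mem (pow_mem hc m)))
    rwa [show c ^ (2 * m + 1) * (c ^ m)⁻¹ ^ 2 = c by field_simp; ring] at this
  · have h3 : (orbit T P i).card ≤ 3 := (Finset.card_le_univ _).trans (by simp)
    have h0 : 0 < (orbit T P i).card := Finset.card_pos.2 ⟨i, self_mem_orbit i⟩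
    have h2 : (orbit T P i).card = 2 := by
      rcases Nat.even_or_odd (orbit T P i).card with ⟨m, hm⟩ | h
      · omega
      · exact absurd h hodd
    obtain ⟨j, hj⟩ : ∃ j, (orbit T P i).erase i = {j} :=
      Finset.card_eq_one.1 (by rw [Finset.card_erase_of_mem (self_mem_orbit i), h2])
    have hji : j ≠ i := (Finset.mem_erase.1 (hj ▸ Finset.mem_singleton_self j)).1
    have hjO : j ∈ orbit T P i := (Finset.mem_erase.1 (hj ▸ Finset.mem_singleton_self j)).2
    have hO : ∀ l ∈ orbit T P i, l = i ∨ l = j := fun l hl => by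
      rcases eq_or_ne l i with h | h
      · exact Or.inl h
      · exact Or.inr (Finset.mem_singleton.1 (hj ▸ Finset.mem_erase.2 ⟨h, hl⟩))
    have hpair : orbit T P i = {i, j} := by
      rw [← Finset.insert_erase (self_mem_orbit i), hj]
    set δ := theta T P i - theta T P j
    have hact : ∀ σ : K ≃ₐ[k] K, (lperm T P σ i = i ∧ σ δ = δ) ∨
        (lperm T P σ i = j ∧ σ δ = -δ) := by
      intro σ
      have hne : lperm T P σ i ≠ lperm T P σ j :=
        fun h => hji ((lperm T P σ).injective h).symm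
      simp only [δ, map_sub, apply_theta]
      rcases hO _ (lperm_mem_orbit (self_mem_orbit i) σ) with h | h <;>
        rcases hO _ (lperm_mem_orbit hjO σ) with h' | h'
      · exact absurd (h.trans h'.symm) hne
      · exact Or.inl ⟨h, by rw [h, h']⟩
      · exact Or.inr ⟨h, by rw [h, h', neg_sub]⟩
      · exact absurd (h.trans h'.symm) hne
    have hδi : δ ∈ fld T P i := mem_fld_of_fixed fun σ hσ => by
      rcases hact σ with ⟨_, h⟩ | ⟨h, _⟩
      · exact h
      · exact absurd (h.symm.trans hσ) hji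
    have hd : δ ^ 2 ∈ (⊥ : IntermediateField k K) := mem_bot_of_fixed fun σ => by
      rcases hact σ with ⟨_, h⟩ | ⟨_, h⟩ <;> rw [map_pow, h]
      ring
    have hδ0 : δ ≠ 0 := sub_ne_zero.2 (theta_injective.ne hji.symm)
    obtain ⟨τ, hτ⟩ := mem_orbit.1 hjO
    have hτδ : τ δ = -δ := by
      rcases hact τ with ⟨h, _⟩ | ⟨_, h⟩
      · exact absurd (hτ.symm.trans h) hji
      · exact h
    by_contra hall
    push Not at hall
    have hle : ∀ a, IsNormOf (⊥ : IntermediateField k K) (δ ^ 2) a → a ≠ 0 → IsNormOf (⊥ : IntermediateField k K) r a := by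
      rintro a ⟨x, hx, y, hy, rfl⟩ ha0
      have hxi : x ∈ fld T P i := (bot_le : ⊥ ≤ fld T P i) hx
      have hyi : y ∈ fld T P i := (bot_le : ⊥ ≤ fld T P i) hy
      have hz : x + δ * y ∈ fld T P i := add_mem hxi (mul_mem hδi hyi)
      have hN : nrm T P i (x + δ * y) = x ^ 2 - δ ^ 2 * y ^ 2 := by
        rw [nrm, hpair, Finset.prod_pair hji.symm, transport_self hz, ← hτ, transport_lperm hz,
          map_add, map_mul, hτδ, apply_of_mem_bot hx, apply_of_mem_bot hy]
        ring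
      have hz0 : x + δ * y ≠ 0 := fun h => ha0 (by
        rw [show x ^ 2 - δ ^ 2 * y ^ 2 = (x + δ * y) * (x - δ * y) by ring, h, zero_mul])
      exact hN ▸ hall _ hz hz0
    obtain ⟨w, hw, hw2⟩ := isSquareIn_bot_of_le hd (pow_ne_zero 2 hδ0) hr hr0 hn' hle
    refine hn ⟨w / δ, div_mem ((bot_le : ⊥ ≤ fld T P i) hw) hδi, ?_⟩
    rw [div_pow, hw2]
    field_simp

lemma hs_nrm (hr : r ∈ (⊥ : IntermediateField k K)) (hr0 : r ≠ 0) {a : K}
    (ha : a ∈ fld T P i) (ha0 : a ≠ 0) :
    hs (fld T P i) a r = hs (⊥ : IntermediateField k K) (nrm T P i a) r := by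
  have hri : r ∈ fld T P i := (bot_le : ⊥ ≤ fld T P i) hr
  refine hs_eq_hs_iff.2 ⟨fun h => isNormOf_nrm hr hr0 h, fun h => ?_⟩
  by_contra hna
  have hn : ¬ IsSquareIn (fld T P i) r := fun hs' => hna (isNormOf_of_isSquareIn hs' hr0 ha)
  obtain ⟨c, hc, hc0, hcn⟩ := exists_not_isNormOf_nrm hr hr0 hn
  have hac : IsNormOf (fld T P i) r (a * c) := by
    refine IndexTwo.mul_norm _ inferInstance r hri hr0 a ha c hc ha0 hc0 hna fun h' => hcn ?_
    exact isNormOf_nrm hr hr0 h'
  have h2 := isNormOf_nrm hr hr0 hac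
  rw [nrm_mul ha hc] at h2
  have h3 := (h.inv hr).mul hr h2
  rw [← mul_assoc, inv_mul_cancel₀ (nrm_ne_zero ha ha0), one_mul] at h3
  exact hcn h3

omit [IsGalois k K] [CharZero K] [IsAlgClosed K] in
lemma hs_prod_left {ι : Type*} {F : IntermediateField k K} [FiniteDimensional k F] (s : Finset ι)
    (f : ι → K) (hr : r ∈ F) (hr0 : r ≠ 0) (hf : ∀ j ∈ s, f j ∈ F) (hf0 : ∀ j ∈ s, f j ≠ 0) :
    hs F (∏ j ∈ s, f j) r = ∏ j ∈ s, hs F (f j) r := by
  classical
  induction s using Finset.induction_on with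
  | empty => simp [hs_one_left]
  | insert j s hj ih =>
    rw [Finset.prod_insert hj, Finset.prod_insert hj,
      hs_mul_left (hf j (Finset.mem_insert_self j s))
        (prod_mem fun l hl => hf l (Finset.mem_insert_of_mem hl)) hr
        (hf0 j (Finset.mem_insert_self j s))
        (Finset.prod_ne_zero_iff.2 fun l hl => hf0 l (Finset.mem_insert_of_mem hl)) hr0,
      ih (fun l hl => hf l (Finset.mem_insert_of_mem hl))
        fun l hl => hf0 l (Finset.mem_insert_of_mem hl)]

/-- The projection formula. -/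
theorem pairing_const {a : Fin 3 → K} (ha : IsLocalFam T P a) (ha0 : ∀ j, a j ≠ 0)
    (hr : r ∈ (⊥ : IntermediateField k K)) (hr0 : r ≠ 0) :
    pairing T P a (fun _ => r) = hs (⊥ : IntermediateField k K) (∏ j, a j) r := by
  rw [prod_univ_eq (T := T) (P := P) a, pairing, hs_prod_left (reps T P) _ hr hr0]
  · exact Finset.prod_congr rfl fun j _ => by
      rw [hs_nrm hr hr0 (ha.mem_fld j) (ha0 j), ha.nrm_eq]
  · exact fun j _ => ha.nrm_eq j ▸ nrm_mem_bot (ha.mem_fld j)
  · exact fun j _ => ha.nrm_eq j ▸ nrm_ne_zero (ha.mem_fld j) (ha0 j)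

end Projection

section Pairing

variable [CharZero K] [IndexTwo k K] {a a' b : Fin 3 → K}

omit [CharZero K] in
lemma pairing_mul_left (ha : IsLocalFam T P a) (ha' : IsLocalFam T P a') (hb : IsLocalFam T P b)
    (ha0 : ∀ j, a j ≠ 0) (ha'0 : ∀ j, a' j ≠ 0) (hb0 : ∀ j, b j ≠ 0) :
    pairing T P (a * a') b = pairing T P a b * pairing T P a' b := by
  rw [pairing, pairing, pairing, ← Finset.prod_mul_distrib]
  exact Finset.prod_congr rfl fun j _ =>
    hs_mul_left (ha.mem_fld j) (ha'.mem_fld j) (hb.mem_fld j) (ha0 j) (ha'0 j) (hb0 j)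

omit [IndexTwo k K] in
lemma pairing_comm (ha : IsLocalFam T P a) (hb : IsLocalFam T P b)
    (ha0 : ∀ j, a j ≠ 0) (hb0 : ∀ j, b j ≠ 0) : pairing T P a b = pairing T P b a :=
  Finset.prod_congr rfl fun j _ => hs_comm (ha.mem_fld j) (hb.mem_fld j) (ha0 j) (hb0 j)

end Pairing

end Fermat.Agent.TwoAdic.Symbol

end
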